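/-
Cluster J (S59), J8 (non-minimal case), numerical criterion: definitions.
Architect: helper60.  Blueprint: `NOTES/blueprint-J-S59.md` (section v3).  Sorry-free.

`𝒪` a discrete valuation ring, `π : R → 𝒪` an augmentation with kernel `𝔭`:
 * `cotLength π`       = length of `𝔭/𝔭²` over `𝒪`        (`Φ_R`),
 * `congruenceIdeal π` = `π(Ann 𝔭)`                        (`η_R`),
 * `congLength π`      = length of `𝒪/η_R`,
 * `eigenLattice π M`  = `M[𝔭] = {m | t m = π(t) m}`,
 * `discLength B L`    = length of the cokernel of `L → L^*`, `x ↦ B(x, ·)`.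
All lengths are in `ℕ∞`.
-/
import Mathlib.RingTheory.Length
import Mathlib.RingTheory.Ideal.Cotangent
import Mathlib.LinearAlgebra.BilinearMap
import Mathlib.LinearAlgebra.Dual.Defs
import Mathlib.RingTheory.Ideal.Maps
import Mathlib.RingTheory.Ideal.Quotient.Operations

set_option autoImplicit false

namespace Fermat.Agent.S59

variable {𝒪 : Type} [CommRing 𝒪]

/-- The length of the cotangent space `𝔭/𝔭²`, `𝔭 = ker π`, of an augmentation. -/
noncomputable def cotLength {R : Type} [CommRing R] [Algebra 𝒪 R] (π : R →ₐ[𝒪] 𝒪) : ℕ∞ :=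
  Module.length 𝒪 (RingHom.ker (π : R →+* 𝒪)).Cotangent

/-- The congruence ideal `η = π(Ann 𝔭)` of an augmentation. -/
def congruenceIdeal {T : Type} [CommRing T] [Algebra 𝒪 T] (π : T →ₐ[𝒪] 𝒪) : Ideal 𝒪 :=
  Ideal.map (π : T →+* 𝒪) (Module.annihilator T (RingHom.ker (π : T →+* 𝒪)))

/-- The length of `𝒪/η`. -/
noncomputable def congLength {T : Type} [CommRing T] [Algebra 𝒪 T] (π : T →ₐ[𝒪] 𝒪) : ℕ∞ :=
  Module.length 𝒪 (𝒪 ⧸ congruenceIdeal π)

/-- The eigen-lattice `M[𝔭]`: the elements on which `T` acts through `π`. -/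
def eigenLattice {T : Type} [CommRing T] [Algebra 𝒪 T] (π : T →ₐ[𝒪] 𝒪)
    (M : Type) [AddCommGroup M] [Module 𝒪 M] [Module T M] [IsScalarTower 𝒪 T M] :
    Submodule 𝒪 M where
  carrier := {m | ∀ t : T, t • m = π t • m}
  zero_mem' := fun t => by rw [smul_zero, smul_zero]
  add_mem' := fun {x y} hx hy t => by rw [smul_add, smul_add, hx t, hy t]
  smul_mem' := fun c x hx t => by
    rw [smul_comm t c x, hx t, smul_comm]

theorem mem_eigenLattice {T : Type} [CommRing T] [Algebra 𝒪 T] (π : T →ₐ[𝒪] 𝒪)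
    {M : Type} [AddCommGroup M] [Module 𝒪 M] [Module T M] [IsScalarTower 𝒪 T M] (m : M) :
    m ∈ eigenLattice π M ↔ ∀ t : T, t • m = π t • m :=
  Iff.rfl

/-- The length of the cokernel of `L → L^*`, `x ↦ B(x, ·)|_L`. -/
noncomputable def discLength {M : Type} [AddCommGroup M] [Module 𝒪 M]
    (B : M →ₗ[𝒪] M →ₗ[𝒪] 𝒪) (L : Submodule 𝒪 M) : ℕ∞ :=
  Module.length 𝒪 (Module.Dual 𝒪 L ⧸ LinearMap.range (B.domRestrict₁₂ L L))

end Fermat.Agent.S59
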