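/-
Cluster J (S59), J8: auxiliary lemmas for `NumCrit/Pairing.lean` (helper96).
-/
import Fermat.Agent.S59.NumCrit.Defs
import Mathlib.RingTheory.DiscreteValuationRing.Basic
import Mathlib.LinearAlgebra.FreeModule.Finite.Basic
import Mathlib.LinearAlgebra.FreeModule.PID
import Mathlib.LinearAlgebra.PerfectPairing.Basic
import Mathlib.LinearAlgebra.Dimension.Finrank
import Mathlib.LinearAlgebra.Quotient.Pi
import Mathlib.Algebra.Module.Projective

set_option autoImplicit false

namespace Fermat.Agent.S59.NumCritPairing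

section basic

variable {𝒪 : Type} [CommRing 𝒪] {T : Type} [CommRing T] [Algebra 𝒪 T]
  {M : Type} [AddCommGroup M] [Module 𝒪 M] [Module T M] [IsScalarTower 𝒪 T M]

theorem aug_surjective (π : T →ₐ[𝒪] 𝒪) : Function.Surjective π := fun c =>
  ⟨algebraMap 𝒪 T c, by simp⟩

theorem sub_algebraMap_mem_ker (π : T →ₐ[𝒪] 𝒪) (t : T) :
    t - algebraMap 𝒪 T (π t) ∈ RingHom.ker (π : T →+* 𝒪) := by
  simp [RingHom.mem_ker]

theorem mul_eq_of_mem_annihilator (π : T →ₐ[𝒪] 𝒪) {i : T}
    (hi : i ∈ Module.annihilator T (RingHom.ker (π : T →+* 𝒪))) (t : T) :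
    t * i = algebraMap 𝒪 T (π t) * i := by
  have h := Module.mem_annihilator.mp hi ⟨_, sub_algebraMap_mem_ker π t⟩
  have h' : i * (t - algebraMap 𝒪 T (π t)) = 0 := by
    simpa using congrArg Subtype.val h
  have : t * i - algebraMap 𝒪 T (π t) * i = 0 := by
    rw [← sub_mul, mul_comm]; exact h'
  exact sub_eq_zero.mp this

theorem annihilator_smul_mem_eigenLattice (π : T →ₐ[𝒪] 𝒪) {i : T}
    (hi : i ∈ Module.annihilator T (RingHom.ker (π : T →+* 𝒪))) (m : M) :
    i • m ∈ eigenLattice π M := by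
  intro t
  rw [← mul_smul, mul_eq_of_mem_annihilator π hi t, mul_smul, algebraMap_smul]

theorem exists_congruenceIdeal_generator [IsPrincipalIdealRing 𝒪] (π : T →ₐ[𝒪] 𝒪) :
    ∃ i₀ ∈ Module.annihilator T (RingHom.ker (π : T →+* 𝒪)),
      congruenceIdeal π = Ideal.span {π i₀} := by
  obtain ⟨g, hg⟩ := (IsPrincipalIdealRing.principal (congruenceIdeal π)).principal
  have hgmem : g ∈ congruenceIdeal π := by
    rw [hg]; exact Submodule.mem_span_singleton_self g
  obtain ⟨i₀, hi₀, rfl⟩ :=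
    (Ideal.mem_map_iff_of_surjective (π : T →+* 𝒪) (aug_surjective π)).mp hgmem
  exact ⟨i₀, hi₀, hg⟩

end basic

section sat

variable {𝒪 : Type} [CommRing 𝒪] [IsDomain 𝒪] {T : Type} [CommRing T] [Algebra 𝒪 T]
  {M : Type} [AddCommGroup M] [Module 𝒪 M] [Module T M] [IsScalarTower 𝒪 T M]

theorem eigenLattice_saturated [Module.IsTorsionFree 𝒪 M] (π : T →ₐ[𝒪] 𝒪) {c : 𝒪} (hc : c ≠ 0)
    {m : M} (h : c • m ∈ eigenLattice π M) : m ∈ eigenLattice π M := by
  intro t
  have h1 := h t
  have h2 : c • (t • m - π t • m) = 0 := by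
    rw [smul_sub, smul_comm c t m, h1, smul_comm c (π t) m, sub_self]
  rcases smul_eq_zero.mp h2 with h3 | h3
  · exact absurd h3 hc
  · exact sub_eq_zero.mp h3

theorem isTorsionFree_quotient_of_saturated (L : Submodule 𝒪 M)
    (hL : ∀ (c : 𝒪), c ≠ 0 → ∀ m : M, c • m ∈ L → m ∈ L) :
    Module.IsTorsionFree 𝒪 (M ⧸ L) := by
  refine ⟨fun r hr q₁ q₂ h => ?_⟩
  obtain ⟨m₁, rfl⟩ := Submodule.Quotient.mk_surjective L q₁
  obtain ⟨m₂, rfl⟩ := Submodule.Quotient.mk_surjective L q₂
  have hr0 : r ≠ 0 := hr.ne_zero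
  have h' : r • (m₁ - m₂) ∈ L := by
    have : (Submodule.Quotient.mk (r • m₁) : M ⧸ L) = Submodule.Quotient.mk (r • m₂) := h
    rw [smul_sub]
    exact (Submodule.Quotient.eq L).mp this
  exact (Submodule.Quotient.eq L).mpr (hL r hr0 _ h')

/-- A saturated submodule of a finite free module over a PID is a direct summand: there is a
retraction. -/
theorem exists_retraction_of_saturated [IsPrincipalIdealRing 𝒪] [Module.Finite 𝒪 M]
    (L : Submodule 𝒪 M)
    (hL : ∀ (c : 𝒪), c ≠ 0 → ∀ m : M, c • m ∈ L → m ∈ L) :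
    ∃ r : M →ₗ[𝒪] L, ∀ x : L, r x = x := by
  have := isTorsionFree_quotient_of_saturated L hL
  have : Module.Free 𝒪 (M ⧸ L) := Module.free_of_finite_type_torsion_free'
  obtain ⟨s, hs⟩ := Module.projective_lifting_property L.mkQ LinearMap.id
    (Submodule.mkQ_surjective L)
  have hmem : ∀ m : M, ((LinearMap.id : M →ₗ[𝒪] M) - s ∘ₗ L.mkQ) m ∈ L := by
    intro m
    rw [← Submodule.Quotient.mk_eq_zero L]
    have := LinearMap.congr_fun hs (L.mkQ m)
    simp only [LinearMap.sub_apply, LinearMap.id_coe, id_eq, LinearMap.coe_comp,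
      Function.comp_apply, Submodule.Quotient.mk_sub]
    simp only [LinearMap.coe_comp, Function.comp_apply, LinearMap.id_coe, id_eq] at this
    rw [← Submodule.mkQ_apply, ← Submodule.mkQ_apply, this, sub_self]
  refine ⟨LinearMap.codRestrict L ((LinearMap.id : M →ₗ[𝒪] M) - s ∘ₗ L.mkQ) hmem, fun x => ?_⟩
  apply Subtype.ext
  simp only [LinearMap.codRestrict_apply, LinearMap.sub_apply, LinearMap.id_coe, id_eq,
    LinearMap.coe_comp, Function.comp_apply, Submodule.mkQ_apply]
  rw [(Submodule.Quotient.mk_eq_zero L).mpr x.2, map_zero, sub_zero]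

end sat

section len
open Module

variable {𝒪 : Type} [CommRing 𝒪]
  {N : Type} [AddCommGroup N] [Module 𝒪 N]

/-- The submodule of vectors all of whose coordinates lie in the ideal `η`. -/
noncomputable def coordSubmodule {ι : Type} [Fintype ι] (b : Basis ι 𝒪 N) (η : Ideal 𝒪) : Submodule 𝒪 N :=
  Submodule.comap (b.equivFun : N →ₗ[𝒪] (ι → 𝒪)) (Submodule.pi Set.univ (fun _ => η))

theorem mem_coordSubmodule {ι : Type} [Fintype ι] (b : Basis ι 𝒪 N) (η : Ideal 𝒪) (n : N) :
    n ∈ coordSubmodule b η ↔ ∀ i, b.repr n i ∈ η := by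
  simp [coordSubmodule, Submodule.mem_pi]

theorem length_quotient_coordSubmodule {ι : Type} [Fintype ι] (b : Basis ι 𝒪 N) (η : Ideal 𝒪) :
    Module.length 𝒪 (N ⧸ coordSubmodule b η) =
      (Fintype.card ι : ℕ∞) * Module.length 𝒪 (𝒪 ⧸ η) := by
  classical
  have hmap : Submodule.map (b.equivFun : N →ₗ[𝒪] (ι → 𝒪)) (coordSubmodule b η) =
      Submodule.pi Set.univ (fun _ => η) := by
    rw [coordSubmodule]
    exact Submodule.map_comap_eq_of_surjective b.equivFun.surjective _
  have e1 := Submodule.Quotient.equiv (coordSubmodule b η) (Submodule.pi Set.univ (fun _ => η))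
    b.equivFun hmap
  have e2 := Submodule.quotientPi (fun _ : ι => η)
  rw [(e1.trans e2).length_eq, Module.length_pi, ENat.card_eq_coe_fintype_card]

theorem length_quotient_le_of_smul_mem {ι : Type} [Fintype ι] (b : Basis ι 𝒪 N) (η : Ideal 𝒪)
    (P : Submodule 𝒪 N) (h : ∀ c ∈ η, ∀ n : N, c • n ∈ P) :
    Module.length 𝒪 (N ⧸ P) ≤ (Fintype.card ι : ℕ∞) * Module.length 𝒪 (𝒪 ⧸ η) := by
  have hle : coordSubmodule b η ≤ P := by
    intro n hn
    rw [mem_coordSubmodule] at hn
    rw [← b.sum_repr n]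
    exact Submodule.sum_mem _ fun i _ => h _ (hn i) _
  rw [← length_quotient_coordSubmodule b η]
  exact Module.length_le_of_surjective (Submodule.factor hle) (Submodule.factor_surjective hle)

theorem length_quotient_eq_of_smul_mem {ι : Type} [Fintype ι] (b : Basis ι 𝒪 N) (η : Ideal 𝒪)
    (P : Submodule 𝒪 N) (h : ∀ c ∈ η, ∀ n : N, c • n ∈ P)
    (h' : ∀ n ∈ P, ∃ c ∈ η, ∃ n' : N, n = c • n') :
    Module.length 𝒪 (N ⧸ P) = (Fintype.card ι : ℕ∞) * Module.length 𝒪 (𝒪 ⧸ η) := by
  have hle : coordSubmodule b η ≤ P := by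
    intro n hn
    rw [mem_coordSubmodule] at hn
    rw [← b.sum_repr n]
    exact Submodule.sum_mem _ fun i _ => h _ (hn i) _
  have hge : P ≤ coordSubmodule b η := by
    intro n hn
    obtain ⟨c, hc, n', rfl⟩ := h' n hn
    rw [mem_coordSubmodule]
    intro i
    rw [map_smul, Finsupp.smul_apply, smul_eq_mul]
    exact Ideal.mul_mem_right _ _ hc
  rw [le_antisymm hge hle, length_quotient_coordSubmodule b η]

end len

section pair
open Module

variable {𝒪 : Type} [CommRing 𝒪] [IsDomain 𝒪] [IsPrincipalIdealRing 𝒪]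
  {T : Type} [CommRing T] [Algebra 𝒪 T]
  {M : Type} [AddCommGroup M] [Module 𝒪 M] [Module.Finite 𝒪 M] [Module.Free 𝒪 M]
  [Module T M] [IsScalarTower 𝒪 T M]

/-- Every functional on the eigen-lattice is the restriction of some `B(m, ·)`. -/
theorem exists_eq_restrict (B : M →ₗ[𝒪] M →ₗ[𝒪] 𝒪) (hB : Function.Surjective B)
    (π : T →ₐ[𝒪] 𝒪) (φ : Module.Dual 𝒪 (eigenLattice π M)) :
    ∃ m : M, ∀ y : eigenLattice π M, B m y = φ y := by
  obtain ⟨r, hr⟩ := exists_retraction_of_saturated (eigenLattice π M)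
    (fun c hc m hm => eigenLattice_saturated π hc hm)
  obtain ⟨m, hm⟩ := hB (φ ∘ₗ r)
  refine ⟨m, fun y => ?_⟩
  rw [hm, LinearMap.comp_apply, hr]

/-- `η L^* ⊆ range (L → L^*)`. -/
theorem smul_mem_range (B : M →ₗ[𝒪] M →ₗ[𝒪] 𝒪) (hB : Function.Surjective B)
    (hBT : ∀ (t : T) (x y : M), B (t • x) y = B x (t • y))
    (π : T →ₐ[𝒪] 𝒪) (c : 𝒪) (hc : c ∈ congruenceIdeal π)
    (φ : Module.Dual 𝒪 (eigenLattice π M)) :
    c • φ ∈ LinearMap.range (B.domRestrict₁₂ (eigenLattice π M) (eigenLattice π M)) := by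
  obtain ⟨i, hi, rfl⟩ :=
    (Ideal.mem_map_iff_of_surjective (π : T →+* 𝒪) (aug_surjective π)).mp hc
  obtain ⟨m, hm⟩ := exists_eq_restrict B hB π φ
  refine ⟨⟨i • m, annihilator_smul_mem_eigenLattice π hi m⟩, ?_⟩
  ext y
  rw [LinearMap.domRestrict₁₂_apply, hBT, y.2 i, map_smul, hm]
  rfl

theorem discLength_le_aux (B : M →ₗ[𝒪] M →ₗ[𝒪] 𝒪) (hB : Function.Surjective B)
    (hBT : ∀ (t : T) (x y : M), B (t • x) y = B x (t • y))
    (π : T →ₐ[𝒪] 𝒪) :
    discLength B (eigenLattice π M) ≤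
      (Module.finrank 𝒪 (eigenLattice π M) : ℕ∞) * congLength π := by
  classical
  have h := length_quotient_le_of_smul_mem (Module.finBasis 𝒪 (eigenLattice π M)).dualBasis
    (congruenceIdeal π)
    (LinearMap.range (B.domRestrict₁₂ (eigenLattice π M) (eigenLattice π M)))
    (fun c hc φ => smul_mem_range B hB hBT π c hc φ)
  rwa [Fintype.card_fin] at h

end pair

section free
open Module

variable {𝒪 : Type} [CommRing 𝒪]
  {T : Type} [CommRing T] [Algebra 𝒪 T]
  {M : Type} [AddCommGroup M] [Module 𝒪 M]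
  [Module T M] [IsScalarTower 𝒪 T M]

/-- `B(x, m) = Σ_j π(m_j) B(x, b_j)` for `x` in the eigen-lattice. -/
theorem pairing_eq_sum {ι : Type} [Fintype ι] (bT : Basis ι T M)
    (B : M →ₗ[𝒪] M →ₗ[𝒪] 𝒪)
    (hBT : ∀ (t : T) (x y : M), B (t • x) y = B x (t • y))
    (π : T →ₐ[𝒪] 𝒪) {x : M} (hx : x ∈ eigenLattice π M) (m : M) :
    B x m = ∑ j, π (bT.repr m j) * B x (bT j) := by
  conv_lhs => rw [← bT.sum_repr m]
  rw [map_sum]
  refine Finset.sum_congr rfl fun j _ => ?_
  rw [← hBT, hx, map_smul, LinearMap.smul_apply, smul_eq_mul]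

/-- The coordinate functional `m ↦ Σ_j c_j π(m_j)`. -/
noncomputable def coordFunctional {ι : Type} [Fintype ι] (bT : Basis ι T M) (π : T →ₐ[𝒪] 𝒪)
    (c : ι → 𝒪) : Module.Dual 𝒪 M where
  toFun m := ∑ j, c j * π (bT.repr m j)
  map_add' m m' := by
    simp only [map_add, Finsupp.add_apply, mul_add, Finset.sum_add_distrib]
  map_smul' a m := by
    simp only [RingHom.id_apply, smul_eq_mul, Finset.mul_sum]
    refine Finset.sum_congr rfl fun j _ => ?_
    rw [← algebraMap_smul T a m, map_smul, Finsupp.smul_apply, smul_eq_mul, map_mul,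
      AlgHom.commutes, Algebra.algebraMap_self_apply]
    ring

theorem coordFunctional_apply {ι : Type} [Fintype ι] (bT : Basis ι T M) (π : T →ₐ[𝒪] 𝒪)
    (c : ι → 𝒪) (m : M) : coordFunctional bT π c m = ∑ j, c j * π (bT.repr m j) := rfl

theorem coordFunctional_smul {ι : Type} [Fintype ι] (bT : Basis ι T M) (π : T →ₐ[𝒪] 𝒪)
    (c : ι → 𝒪) (t : T) (m : M) :
    coordFunctional bT π c (t • m) = π t * coordFunctional bT π c m := by
  simp only [coordFunctional_apply, Finset.mul_sum, map_smul, Finsupp.smul_apply, smul_eq_mul,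
    map_mul]
  refine Finset.sum_congr rfl fun j _ => ?_
  ring

/-- The evaluation map `L → 𝒪^ι`, `x ↦ (B(x, b_j))_j`. -/
noncomputable def evalBasis {ι : Type} (bT : Basis ι T M) (B : M →ₗ[𝒪] M →ₗ[𝒪] 𝒪)
    (π : T →ₐ[𝒪] 𝒪) : eigenLattice π M →ₗ[𝒪] (ι → 𝒪) where
  toFun x j := B x (bT j)
  map_add' x y := by ext j; simp
  map_smul' a x := by ext j; simp

theorem evalBasis_bijective {ι : Type} [Fintype ι] (bT : Basis ι T M)
    (B : M →ₗ[𝒪] M →ₗ[𝒪] 𝒪) (hB : Function.Bijective B)
    (hBT : ∀ (t : T) (x y : M), B (t • x) y = B x (t • y))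
    (π : T →ₐ[𝒪] 𝒪) : Function.Bijective (evalBasis bT B π) := by
  classical
  constructor
  · rw [injective_iff_map_eq_zero]
    intro x hx
    apply Subtype.ext
    apply hB.1
    rw [Submodule.coe_zero, map_zero]
    ext m
    rw [pairing_eq_sum bT B hBT π x.2 m]
    simp only [LinearMap.zero_apply]
    refine Finset.sum_eq_zero fun j _ => ?_
    have := congrFun hx j
    simp only [evalBasis, LinearMap.coe_mk, AddHom.coe_mk, Pi.zero_apply] at this
    rw [this, mul_zero]
  · intro c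
    obtain ⟨x, hx⟩ := hB.2 (coordFunctional bT π c)
    have hxL : x ∈ eigenLattice π M := by
      intro t
      apply hB.1
      ext m
      rw [hBT, hx, coordFunctional_smul, map_smul, LinearMap.smul_apply, hx, smul_eq_mul]
    refine ⟨⟨x, hxL⟩, ?_⟩
    ext j
    simp only [evalBasis, LinearMap.coe_mk, AddHom.coe_mk]
    rw [hx, coordFunctional_apply]
    rw [Finset.sum_eq_single j]
    · simp
    · intro k _ hk
      rw [Basis.repr_self, Finsupp.single_eq_of_ne hk, map_zero, mul_zero]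
    · intro h; exact absurd (Finset.mem_univ j) h

theorem finrank_eigenLattice_of_free [Nontrivial 𝒪] {ι : Type} [Fintype ι] (bT : Basis ι T M)
    (B : M →ₗ[𝒪] M →ₗ[𝒪] 𝒪) (hB : Function.Bijective B)
    (hBT : ∀ (t : T) (x y : M), B (t • x) y = B x (t • y))
    (π : T →ₐ[𝒪] 𝒪) : Module.finrank 𝒪 (eigenLattice π M) = Fintype.card ι := by
  rw [(LinearEquiv.ofBijective _ (evalBasis_bijective bT B hB hBT π)).finrank_eq,
    Module.finrank_fintype_fun_eq_card]

end free

section free2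
open Module

variable {𝒪 : Type} [CommRing 𝒪]
  {T : Type} [CommRing T] [Algebra 𝒪 T]
  {M : Type} [AddCommGroup M] [Module 𝒪 M]
  [Module T M] [IsScalarTower 𝒪 T M]

/-- The coordinates of an element of the eigen-lattice with respect to a `T`-basis annihilate
`ker π`. -/
theorem repr_mem_annihilator {ι : Type} (bT : Basis ι T M)
    (π : T →ₐ[𝒪] 𝒪) {x : M} (hx : x ∈ eigenLattice π M) (j : ι) :
    bT.repr x j ∈ Module.annihilator T (RingHom.ker (π : T →+* 𝒪)) := by
  rw [Module.mem_annihilator]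
  rintro ⟨s, hs⟩
  apply Subtype.ext
  have hs' : π s = 0 := hs
  have h1 : s • x = 0 := by rw [hx s, hs', zero_smul]
  have h2 := congrArg (fun v => bT.repr v j) h1
  simp only [map_smul, Finsupp.smul_apply, smul_eq_mul, map_zero, Finsupp.zero_apply] at h2
  simp only [Submodule.coe_smul, smul_eq_mul, Submodule.coe_zero]
  rw [mul_comm]; exact h2

/-- In the free case every element of the range of `L → L^*` is a multiple of the generator
of the congruence ideal. -/
theorem range_le_of_free {ι : Type} [Fintype ι] (bT : Basis ι T M)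
    (B : M →ₗ[𝒪] M →ₗ[𝒪] 𝒪)
    (hBT : ∀ (t : T) (x y : M), B (t • x) y = B x (t • y))
    (π : T →ₐ[𝒪] 𝒪) (g : 𝒪) (hg : congruenceIdeal π = Ideal.span {g})
    (φ : Module.Dual 𝒪 (eigenLattice π M))
    (hφ : φ ∈ LinearMap.range (B.domRestrict₁₂ (eigenLattice π M) (eigenLattice π M))) :
    ∃ c ∈ congruenceIdeal π, ∃ ψ : Module.Dual 𝒪 (eigenLattice π M), φ = c • ψ := by
  obtain ⟨x, rfl⟩ := hφ
  have hmem : ∀ j, π (bT.repr (x : M) j) ∈ congruenceIdeal π := fun j =>
    Ideal.mem_map_of_mem _ (repr_mem_annihilator bT π x.2 j)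
  have hex : ∀ j, ∃ a : 𝒪, a * g = π (bT.repr (x : M) j) := fun j => by
    have := hmem j
    rw [hg] at this
    exact Ideal.mem_span_singleton'.mp this
  choose a ha using hex
  refine ⟨g, by rw [hg]; exact Ideal.mem_span_singleton_self g,
    ∑ j, a j • (B (bT j)).domRestrict (eigenLattice π M), ?_⟩
  ext y
  rw [LinearMap.domRestrict₁₂_apply]
  conv_lhs => rw [← bT.sum_repr (x : M)]
  rw [map_sum, LinearMap.sum_apply, LinearMap.smul_apply, LinearMap.sum_apply, Finset.smul_sum]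
  refine Finset.sum_congr rfl fun j _ => ?_
  rw [hBT, y.2, map_smul, LinearMap.smul_apply, LinearMap.domRestrict_apply, ← ha j]
  simp only [smul_eq_mul]
  ring

theorem discLength_eq_of_free_aux [IsDomain 𝒪] [IsPrincipalIdealRing 𝒪]
    [Module.Finite 𝒪 M] [Module.Free 𝒪 M] [Module.Free T M]
    (B : M →ₗ[𝒪] M →ₗ[𝒪] 𝒪) (hB : Function.Bijective B)
    (hBT : ∀ (t : T) (x y : M), B (t • x) y = B x (t • y))
    (π : T →ₐ[𝒪] 𝒪) :
    discLength B (eigenLattice π M) = (Module.finrank T M : ℕ∞) * congLength π := by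
  classical
  have : Nontrivial T := by
    refine ⟨⟨0, 1, fun h => ?_⟩⟩
    have := congrArg π h
    rw [map_zero, map_one] at this
    exact zero_ne_one this
  have : Module.Finite T M := Module.Finite.of_restrictScalars_finite 𝒪 T M
  obtain ⟨g, hg⟩ := (IsPrincipalIdealRing.principal (congruenceIdeal π)).principal
  have hg' : congruenceIdeal π = Ideal.span {g} := hg
  have h := length_quotient_eq_of_smul_mem (Module.finBasis 𝒪 (eigenLattice π M)).dualBasis
    (congruenceIdeal π)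
    (LinearMap.range (B.domRestrict₁₂ (eigenLattice π M) (eigenLattice π M)))
    (fun c hc φ => smul_mem_range B hB.2 hBT π c hc φ)
    (fun φ hφ => range_le_of_free (Module.Free.chooseBasis T M) B hBT π g hg' φ hφ)
  rw [Fintype.card_fin,
    finrank_eigenLattice_of_free (Module.Free.chooseBasis T M) B hB hBT π,
    ← Module.finrank_eq_card_chooseBasisIndex] at h
  exact h

end free2

end Fermat.Agent.S59.NumCritPairing
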