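/-
Cluster J (S59), J8, leaves (P1), (P2): the discriminant of a perfect Hecke-equivariant pairing on
the eigen-lattice `L = M[𝔭]` against the congruence module `𝒪/η_T`.
Owner: helper96.  P1, P2 proved here.  (P0) needs `FaithfulSMul T M` (it is false without:
`T = 𝒪[ε]/(ε²)`, `M = 𝒪`, `ε = 0`); the corrected statement `congruenceIdeal_ne_bot_of_faithful`
is proved in `NumCrit/PairingFaithful.lean`.
Reference: Diamond, "The Taylor-Wiles construction and multiplicity one", §2;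
Darmon-Diamond-Taylor §4.4.

Proof.  `η = π(Ann_T 𝔭)`.  `L` is saturated and `B` perfect, so `M → L^*` is onto.  For
`i ∈ Ann_T 𝔭` one has `i M ⊆ L` and `i = π(i)` on `L`, so `π(i) B(m,·)|_L = B(i m,·)|_L`, hence
`η L^* ⊆ range (L → L^*)` and `L^*/range` is a quotient of `L^*/η L^* ≅ (𝒪/η)^{rk L}`.
If `M` is free over `T` with basis `b_j` then `x ↦ (B(x, b_j))_j` is an isomorphism `L ≅ 𝒪^d`, the
coordinates of `x ∈ L` lie in `Ann_T 𝔭`, and `B(x,·)|_L = Σ_j π(x_j) B(b_j,·)|_L ∈ η L^*`, so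
equality holds.
-/
import Fermat.Agent.S59.NumCrit.Defs
import Fermat.Agent.S59.NumCrit.PairingAux
import Mathlib.RingTheory.DiscreteValuationRing.Basic
import Mathlib.LinearAlgebra.FreeModule.Finite.Basic
import Mathlib.LinearAlgebra.PerfectPairing.Basic
import Mathlib.LinearAlgebra.Dimension.Finrank

set_option autoImplicit false

namespace Fermat.Agent.S59

/-- (P1) `length (L^*/L) ≤ rank(L) · length (𝒪/η_T)`. -/
theorem discLength_le {𝒪 : Type} [CommRing 𝒪] [IsDomain 𝒪] [IsDiscreteValuationRing 𝒪]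
    {T : Type} [CommRing T] [Algebra 𝒪 T] [Module.Finite 𝒪 T] [Module.Free 𝒪 T]
    {M : Type} [AddCommGroup M] [Module 𝒪 M] [Module.Finite 𝒪 M] [Module.Free 𝒪 M]
    [Module T M] [IsScalarTower 𝒪 T M]
    (B : M →ₗ[𝒪] M →ₗ[𝒪] 𝒪) (hB : B.IsPerfPair)
    (hBT : ∀ (t : T) (x y : M), B (t • x) y = B x (t • y))
    (π : T →ₐ[𝒪] 𝒪) :
    discLength B (eigenLattice π M) ≤
      (Module.finrank 𝒪 (eigenLattice π M) : ℕ∞) * congLength π :=
  NumCritPairing.discLength_le_aux B hB.bijective_left.2 hBT π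

/-- (P2) If `M` is free over `T`: `length (L^*/L) = rank_T(M) · length (𝒪/η_T)`. -/
theorem discLength_eq_of_free {𝒪 : Type} [CommRing 𝒪] [IsDomain 𝒪] [IsDiscreteValuationRing 𝒪]
    {T : Type} [CommRing T] [Algebra 𝒪 T] [Module.Finite 𝒪 T] [Module.Free 𝒪 T]
    {M : Type} [AddCommGroup M] [Module 𝒪 M] [Module.Finite 𝒪 M] [Module.Free 𝒪 M]
    [Module T M] [IsScalarTower 𝒪 T M] [Module.Free T M]
    (B : M →ₗ[𝒪] M →ₗ[𝒪] 𝒪) (hB : B.IsPerfPair)
    (hBT : ∀ (t : T) (x y : M), B (t • x) y = B x (t • y))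
    (π : T →ₐ[𝒪] 𝒪) :
    discLength B (eigenLattice π M) = (Module.finrank T M : ℕ∞) * congLength π :=
  NumCritPairing.discLength_eq_of_free_aux B hB.bijective_left hBT π

end Fermat.Agent.S59
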