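/-
Cluster J (S59), J8, leaf (P0), corrected statement (helper96): if `M` is a FAITHFUL `T`-module and
the pairing is non-degenerate on the eigen-lattice `L = M[𝔭]` (finite `discLength`), then the
congruence ideal `η_T = π(Ann_T 𝔭)` is non-zero.

(The statement without faithfulness is false: `T = 𝒪[ε]/(ε²)`, `π(ε) = 0`, `M = 𝒪` with `ε = 0`,
`B(x,y) = xy`.)

Proof.  Let `N = {m | B(y, m) = 0 ∀ y ∈ L}`, a `T`-submodule.  Finite length of `L^*/L` gives
`N ∩ L = 0`, i.e. `N[𝔭] = 0`.  As `𝔭` is a minimal prime of `T` (incomparability), it would be an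
associated prime of `N` if `Ann_T N ⊆ 𝔭`; so there is `i ∈ Ann_T N` with `π(i) ≠ 0`.  Since `L` is
saturated and `B` perfect, `L` is the left orthogonal of `N`, hence `i M ⊆ L`, so `𝔭 i M = 0` and
`𝔭 i = 0` by faithfulness: `i ∈ Ann_T 𝔭` and `π(i) ≠ 0`.
-/
import Fermat.Agent.S59.NumCrit.PairingAux
import Mathlib.RingTheory.Ideal.AssociatedPrime.Localization
import Mathlib.RingTheory.Ideal.GoingUp
import Mathlib.RingTheory.Artinian.Module
import Mathlib.RingTheory.FiniteLength

set_option autoImplicit false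

namespace Fermat.Agent.S59.NumCritPairing

open Module

section artin

variable {𝒪 : Type} [CommRing 𝒪] [IsLocalRing 𝒪]
  {Q : Type} [AddCommGroup Q] [Module 𝒪 Q]

/-- In a module of finite length over a local ring every element is killed by a power of any
given non-unit. -/
theorem exists_pow_smul_eq_zero_of_length_ne_top (h : Module.length 𝒪 Q ≠ ⊤) {ϖ : 𝒪}
    (hϖ : ¬ IsUnit ϖ) (q : Q) : ∃ n : ℕ, ϖ ^ n • q = 0 := by
  rw [Module.length_ne_top_iff, isFiniteLength_iff_isNoetherian_isArtinian] at h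
  obtain ⟨-, hA⟩ := h
  obtain ⟨n, ⟨y, hy⟩, hny⟩ := IsArtinian.exists_pow_succ_smul_dvd ϖ
    (⟨q, Submodule.mem_span_singleton_self q⟩ : Submodule.span 𝒪 {q})
  obtain ⟨a, rfl⟩ := Submodule.mem_span_singleton.mp hy
  have h1 : ϖ ^ (n + 1) • a • q = ϖ ^ n • q := congrArg Subtype.val hny
  have hu : IsUnit (1 - ϖ * a) := by
    apply IsLocalRing.isUnit_one_sub_self_of_mem_nonunits
    exact fun hc => hϖ (isUnit_of_mul_isUnit_left hc)
  refine ⟨n, ?_⟩
  have h3 : (ϖ * a) • (ϖ ^ n • q) = ϖ ^ n • q := by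
    calc (ϖ * a) • (ϖ ^ n • q) = ϖ ^ (n + 1) • a • q := by
          rw [smul_smul, smul_smul]
          congr 1
          ring
      _ = ϖ ^ n • q := h1
  have h2 : (1 - ϖ * a) • (ϖ ^ n • q) = 0 := by
    rw [sub_smul, one_smul, h3, sub_self]
  exact (hu.smul_eq_zero).mp h2

end artin

section orth

variable {𝒪 : Type} [CommRing 𝒪]
  {T : Type} [CommRing T] [Algebra 𝒪 T]
  {M : Type} [AddCommGroup M] [Module 𝒪 M] [Module T M] [IsScalarTower 𝒪 T M]

/-- The right orthogonal of the eigen-lattice, as a `T`-submodule. -/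
def rightOrth (B : M →ₗ[𝒪] M →ₗ[𝒪] 𝒪)
    (hBT : ∀ (t : T) (x y : M), B (t • x) y = B x (t • y)) (π : T →ₐ[𝒪] 𝒪) :
    Submodule T M where
  carrier := {m | ∀ y ∈ eigenLattice π M, B y m = 0}
  zero_mem' := fun y _ => by rw [map_zero]
  add_mem' := fun {a b} ha hb y hy => by rw [map_add, ha y hy, hb y hy, add_zero]
  smul_mem' := fun t m hm y hy => by
    rw [← hBT, hy t, map_smul, LinearMap.smul_apply, hm y hy, smul_zero]

theorem mem_rightOrth (B : M →ₗ[𝒪] M →ₗ[𝒪] 𝒪)
    (hBT : ∀ (t : T) (x y : M), B (t • x) y = B x (t • y)) (π : T →ₐ[𝒪] 𝒪) (m : M) :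
    m ∈ rightOrth B hBT π ↔ ∀ y ∈ eigenLattice π M, B y m = 0 := Iff.rfl

end orth

section nondeg

variable {𝒪 : Type} [CommRing 𝒪] [IsDomain 𝒪] [IsDiscreteValuationRing 𝒪]
  {T : Type} [CommRing T] [Algebra 𝒪 T]
  {M : Type} [AddCommGroup M] [Module 𝒪 M] [Module.Finite 𝒪 M] [Module.Free 𝒪 M]
  [Module T M] [IsScalarTower 𝒪 T M]

/-- Finite `discLength` implies that the eigen-lattice meets its right orthogonal trivially. -/
theorem eq_zero_of_mem_rightOrth_of_mem_eigenLattice (B : M →ₗ[𝒪] M →ₗ[𝒪] 𝒪)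
    (hBT : ∀ (t : T) (x y : M), B (t • x) y = B x (t • y)) (π : T →ₐ[𝒪] 𝒪)
    (hfin : discLength B (eigenLattice π M) ≠ ⊤) {y : M} (hy : y ∈ eigenLattice π M)
    (hy' : y ∈ rightOrth B hBT π) : y = 0 := by
  obtain ⟨ϖ, hϖ⟩ := IsDiscreteValuationRing.exists_irreducible 𝒪
  have hϖ0 : ϖ ≠ 0 := hϖ.ne_zero
  have key : ∀ φ : Module.Dual 𝒪 (eigenLattice π M), φ ⟨y, hy⟩ = 0 := by
    intro φ
    obtain ⟨n, hn⟩ := exists_pow_smul_eq_zero_of_length_ne_top hfin hϖ.not_isUnit
      (Submodule.Quotient.mk φ)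
    rw [← Submodule.Quotient.mk_smul, Submodule.Quotient.mk_eq_zero] at hn
    obtain ⟨x, hx⟩ := hn
    have h1 := LinearMap.congr_fun hx ⟨y, hy⟩
    rw [LinearMap.domRestrict₁₂_apply, LinearMap.smul_apply, smul_eq_mul] at h1
    have h2 : B (x : M) y = 0 := hy' x x.2
    rw [h2] at h1
    rcases mul_eq_zero.mp h1.symm with h3 | h3
    · exact absurd (eq_zero_of_pow_eq_zero h3) hϖ0
    · exact h3
  let b := Module.finBasis 𝒪 (eigenLattice π M)
  have h0 : (⟨y, hy⟩ : eigenLattice π M) = 0 := by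
    apply b.ext_elem
    intro i
    have := key (b.coord i)
    rw [Basis.coord_apply] at this
    rw [this, map_zero, Finsupp.zero_apply]
  exact congrArg Subtype.val h0

end nondeg

section ass

variable {𝒪 : Type} [CommRing 𝒪] [IsDomain 𝒪] [IsPrincipalIdealRing 𝒪]
  {T : Type} [CommRing T] [Algebra 𝒪 T] [Module.Finite 𝒪 T]
  {M : Type} [AddCommGroup M] [Module 𝒪 M] [Module.Finite 𝒪 M]
  [Module T M] [IsScalarTower 𝒪 T M]

omit [IsPrincipalIdealRing 𝒪] in
/-- The kernel of an augmentation of a finite `𝒪`-algebra is a minimal prime over any ideal it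
contains. -/
theorem ker_mem_minimalPrimes (π : T →ₐ[𝒪] 𝒪) (I : Ideal T)
    (hI : I ≤ RingHom.ker (π : T →+* 𝒪)) :
    RingHom.ker (π : T →+* 𝒪) ∈ I.minimalPrimes := by
  have : (RingHom.ker (π : T →+* 𝒪)).IsPrime := RingHom.ker_isPrime _
  obtain ⟨𝔮, h𝔮, hle⟩ := Ideal.exists_minimalPrimes_le hI
  have h𝔮prime : 𝔮.IsPrime := h𝔮.isPrime
  suffices h : 𝔮 = RingHom.ker (π : T →+* 𝒪) by rwa [← h]
  by_contra hne
  have hlt : 𝔮 < RingHom.ker (π : T →+* 𝒪) := lt_of_le_of_ne hle hne
  obtain ⟨x, hx, hx'⟩ := Set.exists_of_ssubset hlt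
  have hint : IsIntegral 𝒪 x := Algebra.IsIntegral.isIntegral x
  have h1 := Ideal.comap_lt_comap_of_integral_mem_sdiff hle ⟨hx, hx'⟩ hint
  have h2 : (RingHom.ker (π : T →+* 𝒪)).comap (algebraMap 𝒪 T) = ⊥ := by
    rw [eq_bot_iff]
    intro c hc
    rw [Ideal.mem_comap, RingHom.mem_ker] at hc
    have : π (algebraMap 𝒪 T c) = c := by simp
    rw [Ideal.mem_bot, ← this]
    exact hc
  rw [h2] at h1
  exact not_lt_bot h1

/-- If a `T`-submodule `N` of `M` has no non-zero element in the eigen-lattice, some element of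
its annihilator is not in `ker π`. -/
theorem exists_mem_annihilator_aug_ne_zero (π : T →ₐ[𝒪] 𝒪) (N : Submodule T M)
    (hN : ∀ n ∈ N, n ∈ eigenLattice π M → n = 0) :
    ∃ i ∈ Module.annihilator T N, π i ≠ 0 := by
  by_contra hcon
  push Not at hcon
  have hle : Module.annihilator T N ≤ RingHom.ker (π : T →+* 𝒪) := fun i hi => hcon i hi
  have : IsNoetherian 𝒪 T := isNoetherian_of_isNoetherianRing_of_finite 𝒪 T
  have : IsNoetherianRing T := isNoetherian_of_tower 𝒪 ‹IsNoetherian 𝒪 T›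
  have : IsNoetherian 𝒪 M := isNoetherian_of_isNoetherianRing_of_finite 𝒪 M
  have : IsNoetherian T M := isNoetherian_of_tower 𝒪 ‹IsNoetherian 𝒪 M›
  have : Module.Finite T N := Module.Finite.of_fg (IsNoetherian.noetherian N)
  have hmin := ker_mem_minimalPrimes π _ hle
  have hass := Module.associatedPrimes.minimalPrimes_annihilator_subset_associatedPrimes T N hmin
  obtain ⟨hprime, x, hx⟩ := (isAssociatedPrime_iff (M := N)).mp hass
  have hxL : (x : M) ∈ eigenLattice π M := by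
    intro t
    have h1 : t - algebraMap 𝒪 T (π t) ∈ (⊥ : Submodule T N).colon {x} := by
      rw [← hx]; exact sub_algebraMap_mem_ker π t
    rw [Submodule.mem_colon_singleton, Submodule.mem_bot] at h1
    have h2 := congrArg Subtype.val h1
    simp only [Submodule.coe_zero, sub_smul, algebraMap_smul] at h2
    exact sub_eq_zero.mp h2
  have hx0 : x = 0 := Subtype.ext (hN x x.2 hxL)
  apply hprime.ne_top
  rw [hx, hx0, Ideal.eq_top_iff_one, Submodule.mem_colon_singleton, smul_zero]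
  exact Submodule.zero_mem _

end ass

section dorth

variable {𝒪 : Type} [CommRing 𝒪] [IsDomain 𝒪] [IsPrincipalIdealRing 𝒪]
  {T : Type} [CommRing T] [Algebra 𝒪 T]
  {M : Type} [AddCommGroup M] [Module 𝒪 M] [Module.Finite 𝒪 M] [Module.Free 𝒪 M]
  [Module T M] [IsScalarTower 𝒪 T M]

/-- The eigen-lattice is the left orthogonal of its right orthogonal. -/
theorem mem_eigenLattice_of_orth (B : M →ₗ[𝒪] M →ₗ[𝒪] 𝒪) (hB : Function.Surjective B.flip)
    (hBT : ∀ (t : T) (x y : M), B (t • x) y = B x (t • y)) (π : T →ₐ[𝒪] 𝒪) (z : M)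
    (hz : ∀ n ∈ rightOrth B hBT π, B z n = 0) : z ∈ eigenLattice π M := by
  obtain ⟨r, hr⟩ := exists_retraction_of_saturated (eigenLattice π M)
    (fun c hc m hm => eigenLattice_saturated π hc hm)
  have key : ∀ ψ : Module.Dual 𝒪 M, ψ (z - r z) = 0 := by
    intro ψ
    obtain ⟨n, hn⟩ := hB (ψ ∘ₗ (LinearMap.id - (eigenLattice π M).subtype ∘ₗ r))
    have hnN : n ∈ rightOrth B hBT π := by
      intro y hy
      have := LinearMap.congr_fun hn y
      rw [LinearMap.flip_apply] at this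
      rw [this]
      have hry : ((r y : eigenLattice π M) : M) = y := congrArg Subtype.val (hr ⟨y, hy⟩)
      simp [hry]
    have := LinearMap.congr_fun hn z
    rw [LinearMap.flip_apply, hz n hnN] at this
    rw [this]
    simp
  let b := Module.Free.chooseBasis 𝒪 M
  have h0 : z - r z = 0 := by
    apply b.ext_elem
    intro i
    have := key (b.coord i)
    rw [Basis.coord_apply] at this
    rw [this, map_zero, Finsupp.zero_apply]
  rw [sub_eq_zero.mp h0]
  exact (r z).2

end dorth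

section main

variable {𝒪 : Type} [CommRing 𝒪] [IsDomain 𝒪] [IsDiscreteValuationRing 𝒪]
  {T : Type} [CommRing T] [Algebra 𝒪 T] [Module.Finite 𝒪 T]
  {M : Type} [AddCommGroup M] [Module 𝒪 M] [Module.Finite 𝒪 M] [Module.Free 𝒪 M]
  [Module T M] [IsScalarTower 𝒪 T M]

/-- Finite `discLength` produces an element of `Ann_T(ker π)` on which `π` does not vanish, if
`M` is a faithful `T`-module. -/
theorem exists_mem_annihilator_ker_aug_ne_zero [FaithfulSMul T M]
    (B : M →ₗ[𝒪] M →ₗ[𝒪] 𝒪) (hB : Function.Surjective B.flip)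
    (hBT : ∀ (t : T) (x y : M), B (t • x) y = B x (t • y))
    (π : T →ₐ[𝒪] 𝒪) (hfin : discLength B (eigenLattice π M) ≠ ⊤) :
    ∃ i ∈ Module.annihilator T (RingHom.ker (π : T →+* 𝒪)), π i ≠ 0 := by
  obtain ⟨i, hi, hπi⟩ := exists_mem_annihilator_aug_ne_zero π (rightOrth B hBT π)
    (fun n hn hnL => eq_zero_of_mem_rightOrth_of_mem_eigenLattice B hBT π hfin hnL hn)
  refine ⟨i, ?_, hπi⟩
  have hiM : ∀ m : M, i • m ∈ eigenLattice π M := by
    intro m
    apply mem_eigenLattice_of_orth B hB hBT π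
    intro n hn
    have h0 : i • n = 0 := by
      have := Module.mem_annihilator.mp hi ⟨n, hn⟩
      exact congrArg Subtype.val this
    rw [hBT, h0, map_zero]
  rw [Module.mem_annihilator]
  rintro ⟨s, hs⟩
  apply Subtype.ext
  have hs' : π s = 0 := hs
  show i * s = 0
  apply FaithfulSMul.eq_of_smul_eq_smul (α := M)
  intro m
  rw [zero_smul, mul_comm, mul_smul, hiM m s, hs', zero_smul]

end main

end Fermat.Agent.S59.NumCritPairing

namespace Fermat.Agent.S59

/-- (P0), corrected: if `M` is a faithful `T`-module and the pairing is non-degenerate on the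
eigen-lattice (finite `discLength`), then `η_T ≠ 0`. -/
theorem congruenceIdeal_ne_bot_of_faithful {𝒪 : Type} [CommRing 𝒪] [IsDomain 𝒪]
    [IsDiscreteValuationRing 𝒪]
    {T : Type} [CommRing T] [Algebra 𝒪 T] [Module.Finite 𝒪 T] [Module.Free 𝒪 T]
    {M : Type} [AddCommGroup M] [Module 𝒪 M] [Module.Finite 𝒪 M] [Module.Free 𝒪 M]
    [Module T M] [IsScalarTower 𝒪 T M] [FaithfulSMul T M]
    (B : M →ₗ[𝒪] M →ₗ[𝒪] 𝒪) (hB : B.IsPerfPair)
    (hBT : ∀ (t : T) (x y : M), B (t • x) y = B x (t • y))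
    (π : T →ₐ[𝒪] 𝒪)
    (hfin : discLength B (eigenLattice π M) ≠ ⊤) :
    congruenceIdeal π ≠ ⊥ := by
  obtain ⟨i, hi, hπi⟩ := NumCritPairing.exists_mem_annihilator_ker_aug_ne_zero B
    hB.bijective_right.2 hBT π hfin
  intro h
  have hmem : π i ∈ congruenceIdeal π := Ideal.mem_map_of_mem _ hi
  rw [h, Ideal.mem_bot] at hmem
  exact hπi hmem

/-- If `T` is reduced (and finite over the principal ideal domain `𝒪`), the congruence ideal of
any augmentation is non-zero. -/
theorem congruenceIdeal_ne_bot_of_isReduced {𝒪 : Type} [CommRing 𝒪] [IsDomain 𝒪]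
    [IsPrincipalIdealRing 𝒪]
    {T : Type} [CommRing T] [Algebra 𝒪 T] [Module.Finite 𝒪 T] [IsReduced T]
    (π : T →ₐ[𝒪] 𝒪) :
    congruenceIdeal π ≠ ⊥ := by
  have : IsNoetherian 𝒪 T := isNoetherian_of_isNoetherianRing_of_finite 𝒪 T
  have : IsNoetherianRing T := isNoetherian_of_tower 𝒪 ‹IsNoetherian 𝒪 T›
  have hmin := NumCritPairing.ker_mem_minimalPrimes π (Module.annihilator T T)
    (by rw [Module.annihilator_eq_bot.mpr inferInstance]; exact bot_le)
  have hass := Module.associatedPrimes.minimalPrimes_annihilator_subset_associatedPrimes T T hmin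
  obtain ⟨hprime, x, hx⟩ := (isAssociatedPrime_iff (M := T)).mp hass
  have hx0 : x ≠ 0 := by
    rintro rfl
    apply hprime.ne_top
    rw [hx, Ideal.eq_top_iff_one, Submodule.mem_colon_singleton, smul_zero]
    exact Submodule.zero_mem _
  have hker : ∀ s ∈ RingHom.ker (π : T →+* 𝒪), s * x = 0 := by
    intro s hs
    rw [hx, Submodule.mem_colon_singleton, Submodule.mem_bot] at hs
    exact hs
  have hxann : x ∈ Module.annihilator T (RingHom.ker (π : T →+* 𝒪)) := by
    rw [Module.mem_annihilator]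
    rintro ⟨s, hs⟩
    apply Subtype.ext
    show x * s = 0
    rw [mul_comm]; exact hker s hs
  have hπx : π x ≠ 0 := by
    intro h0
    have hxx : x * x = 0 := hker x h0
    exact hx0 (IsReduced.eq_zero x ⟨2, by rw [pow_two]; exact hxx⟩)
  intro h
  have hmem : π x ∈ congruenceIdeal π := Ideal.mem_map_of_mem _ hxann
  rw [h, Ideal.mem_bot] at hmem
  exact hπx hmem

end Fermat.Agent.S59
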