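/-
Cluster J (S59), J8, leaf (NC0): for a complete intersection `T = 𝒪⟦X₁,…,X_r⟧/(f₁,…,f_r)`, finite
free over `𝒪`, the cotangent space and the congruence module of any augmentation have the same
length (Tate; both are `𝒪/det(∂f_i/∂X_j)(π)`).
Owner: helper25 (statement: helper60).  Reference: Darmon-Diamond-Taylor, Theorem 5.3 (c)⇒(b),
Mazur-Roberts appendix (Tate), Lenstra.

Proof (elementary, no Koszul complex; route found independently by helper85):
 * `Tate/Translate.lean`, `Tate/NormalForm.lean`: translate so that `π ∘ γ = constantCoeff` and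
   `f_i = Σ_j c_ij X_j`;
 * `Tate/Cot.lean` (helper63): `𝔭/𝔭² = 𝒪^r / rows c(0)`;
 * `Tate/CokerLength.lean` (helper67): the cokernel of a square matrix over a discrete valuation
   ring has the length of `𝒪/(det)`;
 * `Tate/Socle.lean` (helper85): `det c̄ ∉ (f̄)` over the residue field;
 * `Tate/Cong.lean`: the congruence ideal is `(det c(0))` (Cramer and the socle lemma).
-/
import Fermat.Agent.S59.NumCrit.Defs
import Fermat.Agent.S59.NumCrit.Tate.NormalForm
import Fermat.Agent.S59.NumCrit.Tate.Cot
import Fermat.Agent.S59.NumCrit.Tate.CokerLength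
import Fermat.Agent.S59.NumCrit.Tate.Cong
import Mathlib.RingTheory.DiscreteValuationRing.Basic
import Mathlib.RingTheory.AdicCompletion.Basic
import Mathlib.RingTheory.MvPowerSeries.Basic
import Mathlib.LinearAlgebra.FreeModule.Finite.Basic

set_option autoImplicit false

namespace Fermat.Agent.S59

open IsLocalRing

theorem cotLength_eq_congLength_of_completeIntersection {𝒪 : Type} [CommRing 𝒪] [IsDomain 𝒪]
    [IsDiscreteValuationRing 𝒪] [IsAdicComplete (maximalIdeal 𝒪) 𝒪]
    {T : Type} [CommRing T] [Algebra 𝒪 T] [Module.Finite 𝒪 T] [Module.Free 𝒪 T]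
    (π : T →ₐ[𝒪] 𝒪) (r : ℕ) (γ : MvPowerSeries (Fin r) 𝒪 →ₐ[𝒪] T)
    (hγ : Function.Surjective γ) (f : Fin r → MvPowerSeries (Fin r) 𝒪)
    (hker : RingHom.ker (γ : MvPowerSeries (Fin r) 𝒪 →+* T) = Ideal.span (Set.range f)) :
    cotLength π = congLength π := by
  obtain ⟨γ', c, hγ', hε', hker'⟩ := tate_exists_normalForm π r γ hγ f hker
  rw [tate_cotLength_eq π r γ' hγ' hε' c hker', tate_length_coker, Matrix.det_transpose,
    congLength, tate_congruenceIdeal_eq π γ' c hγ' hε' hker']

end Fermat.Agent.S59
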