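/-
Cluster J (S59), J8 (non-minimal case): the induction step and the base of the numerical-criterion
induction, assembled from the leaves (NC0), (NC1), (P0)-(P2).  Architect: helper60; owner since
00:33Z 27 Sep: helper96 (`rt_step` now assumes `FaithfulSMul T M`, needed for (P0)).
Sorry-free modulo the leaves.

Invariant carried through the levels `Σ`:
  `d * cotLength (π ∘ φ_Σ) = discLength B_Σ (M_Σ[𝔭])`          (`d` = rank of the eigen-lattice).
-/
import Fermat.Agent.S59.NumCrit.WilesLenstra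
import Fermat.Agent.S59.NumCrit.Tate
import Fermat.Agent.S59.NumCrit.Pairing
import Fermat.Agent.S59.NumCrit.PairingFaithful

set_option autoImplicit false

namespace Fermat.Agent.S59

open IsLocalRing

theorem enat_le_of_mul_le_mul {d : ℕ} (hd : 0 < d) {a b : ℕ∞}
    (h : (d : ℕ∞) * a ≤ (d : ℕ∞) * b) : a ≤ b := by
  rcases eq_or_ne b ⊤ with rfl | hb
  · exact le_top
  · lift b to ℕ using hb
    rcases eq_or_ne a ⊤ with rfl | ha
    · exfalso
      have h1 : (d : ℕ∞) * ⊤ = ⊤ := by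
        rw [ENat.mul_top]
        exact_mod_cast hd.ne'
      rw [h1] at h
      have h2 : (d : ℕ∞) * (b : ℕ∞) = ((d * b : ℕ) : ℕ∞) := by push_cast; rfl
      rw [h2] at h
      exact absurd (top_le_iff.mp h) (ENat.coe_ne_top _)
    · lift a to ℕ using ha
      have h2 : ((d * a : ℕ) : ℕ∞) ≤ ((d * b : ℕ) : ℕ∞) := by
        push_cast
        exact h
      have h3 : d * a ≤ d * b := by exact_mod_cast h2
      exact_mod_cast Nat.le_of_mul_le_mul_left h3 hd

/-- **Induction step** of the numerical-criterion induction. -/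
theorem rt_step {𝒪 : Type} [CommRing 𝒪] [IsDomain 𝒪]
    [IsDiscreteValuationRing 𝒪] [IsAdicComplete (maximalIdeal 𝒪) 𝒪]
    {R T : Type} [CommRing R] [IsLocalRing R] [IsNoetherianRing R]
    [IsAdicComplete (maximalIdeal R) R] [Algebra 𝒪 R]
    [CommRing T] [Algebra 𝒪 T] [Module.Finite 𝒪 T] [Module.Free 𝒪 T]
    (φ : R →ₐ[𝒪] T) (hφ : Function.Surjective φ) (π : T →ₐ[𝒪] 𝒪)
    {M : Type} [AddCommGroup M] [Module 𝒪 M] [Module.Finite 𝒪 M] [Module.Free 𝒪 M]
    [Module T M] [IsScalarTower 𝒪 T M] [FaithfulSMul T M]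
    (B : M →ₗ[𝒪] M →ₗ[𝒪] 𝒪) (hB : B.IsPerfPair)
    (hBT : ∀ (t : T) (x y : M), B (t • x) y = B x (t • y))
    (d : ℕ) (hd : 0 < d) (hrank : Module.finrank 𝒪 (eigenLattice π M) = d)
    (c₀ δ₀ lc : ℕ∞) (hgood : (d : ℕ∞) * c₀ = δ₀)
    (hSG : cotLength (π.comp φ) ≤ c₀ + lc)
    (hDG : δ₀ + (d : ℕ∞) * lc ≤ discLength B (eigenLattice π M))
    (hfin : discLength B (eigenLattice π M) ≠ ⊤) :
    Function.Injective φ ∧
      (d : ℕ∞) * cotLength (π.comp φ) = discLength B (eigenLattice π M) := by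
  have hP1 := discLength_le B hB hBT π
  rw [hrank] at hP1
  have h1 : (d : ℕ∞) * cotLength (π.comp φ) ≤ discLength B (eigenLattice π M) :=
    calc (d : ℕ∞) * cotLength (π.comp φ) ≤ (d : ℕ∞) * (c₀ + lc) := by gcongr
      _ = δ₀ + (d : ℕ∞) * lc := by rw [mul_add, hgood]
      _ ≤ _ := hDG
  have h2 : cotLength (π.comp φ) ≤ congLength π := enat_le_of_mul_le_mul hd (h1.trans hP1)
  have hη := congruenceIdeal_ne_bot_of_faithful B hB hBT π hfin
  refine ⟨injective_of_cotLength_le φ hφ π hη h2, le_antisymm h1 ?_⟩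
  have h3 : congLength π ≤ cotLength (π.comp φ) :=
    (congLength_le_cotLength π).trans (cotLength_le_of_surjective φ hφ π)
  exact hP1.trans (by gcongr)

/-- The cotangent length does not change under an isomorphism. -/
theorem cotLength_comp_of_bijective {𝒪 : Type} [CommRing 𝒪]
    {R T : Type} [CommRing R] [Algebra 𝒪 R] [CommRing T] [Algebra 𝒪 T]
    (φ : R →ₐ[𝒪] T) (hφ : Function.Bijective φ) (π : T →ₐ[𝒪] 𝒪) :
    cotLength (π.comp φ) = cotLength π := by
  refine le_antisymm ?_ (cotLength_le_of_surjective φ hφ.2 π)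
  let e : R ≃ₐ[𝒪] T := AlgEquiv.ofBijective φ hφ
  have h := cotLength_le_of_surjective (e.symm : T →ₐ[𝒪] R) e.symm.surjective (π.comp φ)
  have h2 : (π.comp φ).comp (e.symm : T →ₐ[𝒪] R) = π := by
    ext t
    show π (φ (e.symm t)) = π t
    congr 1
    exact e.apply_symm_apply t
  rwa [h2] at h

/-- **Base** of the induction: the minimal case (`R ≅ T` a complete intersection, `M` free over
`T`). -/
theorem rt_base {𝒪 : Type} [CommRing 𝒪] [IsDomain 𝒪]
    [IsDiscreteValuationRing 𝒪] [IsAdicComplete (maximalIdeal 𝒪) 𝒪]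
    {R T : Type} [CommRing R] [Algebra 𝒪 R]
    [CommRing T] [Algebra 𝒪 T] [Module.Finite 𝒪 T] [Module.Free 𝒪 T]
    (φ : R →ₐ[𝒪] T) (hφ : Function.Bijective φ) (π : T →ₐ[𝒪] 𝒪)
    {M : Type} [AddCommGroup M] [Module 𝒪 M] [Module.Finite 𝒪 M] [Module.Free 𝒪 M]
    [Module T M] [IsScalarTower 𝒪 T M] [Module.Free T M]
    (B : M →ₗ[𝒪] M →ₗ[𝒪] 𝒪) (hB : B.IsPerfPair)
    (hBT : ∀ (t : T) (x y : M), B (t • x) y = B x (t • y))
    (r : ℕ) (γ : MvPowerSeries (Fin r) 𝒪 →ₐ[𝒪] T)
    (hγ : Function.Surjective γ) (f : Fin r → MvPowerSeries (Fin r) 𝒪)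
    (hker : RingHom.ker (γ : MvPowerSeries (Fin r) 𝒪 →+* T) = Ideal.span (Set.range f)) :
    (Module.finrank T M : ℕ∞) * cotLength (π.comp φ) = discLength B (eigenLattice π M) := by
  rw [cotLength_comp_of_bijective φ hφ π,
    cotLength_eq_congLength_of_completeIntersection π r γ hγ f hker,
    discLength_eq_of_free B hB hBT π]

end Fermat.Agent.S59
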