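import Mathlib
import Fermat.Agent.S59.NumCrit.Defs

set_option autoImplicit false
set_option linter.style.haveILetI false
set_option linter.unusedVariables false
set_option linter.unusedSectionVars false
set_option linter.unusedSimpArgs false

namespace Fermat.Agent.S59.NumCrit

open IsLocalRing DirectSum

/-! ### Lengths over a principal ideal domain -/

section PID

variable {𝒪 : Type} [CommRing 𝒪] [IsDomain 𝒪] [IsPrincipalIdealRing 𝒪]

/-- The order of a finite product of nonzero elements is the sum of the orders. -/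
theorem ord_prod {ι : Type} (s : Finset ι) (c : ι → 𝒪) (hc : ∀ i ∈ s, c i ≠ 0) :
    Ring.ord 𝒪 (∏ i ∈ s, c i) = ∑ i ∈ s, Ring.ord 𝒪 (c i) := by
  classical
  induction s using Finset.induction_on with
  | empty => simp [Ring.ord_one]
  | insert a s ha ih =>
    rw [Finset.prod_insert ha, Finset.sum_insert ha, Ring.ord_mul, ih]
    · intro i hi
      exact hc i (Finset.mem_insert_of_mem hi)
    · apply mem_nonZeroDivisors_of_ne_zero
      rw [Finset.prod_ne_zero_iff]
      intro i hi
      exact hc i (Finset.mem_insert_of_mem hi)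

/-- A module of finite length over a domain of infinite length is torsion. -/
theorem isTorsion_of_length_ne_top (hO : Module.length 𝒪 𝒪 = ⊤)
    {Φ : Type} [AddCommGroup Φ] [Module 𝒪 Φ] (hfin : Module.length 𝒪 Φ ≠ ⊤) :
    Module.IsTorsion 𝒪 Φ := by
  intro m
  by_contra hcon
  push Not at hcon
  have hinj : Function.Injective (LinearMap.toSpanSingleton 𝒪 Φ m) := by
    rw [← LinearMap.ker_eq_bot, LinearMap.ker_eq_bot']
    intro a ha
    by_contra ha0
    exact hcon ⟨a, mem_nonZeroDivisors_of_ne_zero ha0⟩ ha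
  have := Module.length_le_of_injective _ hinj
  rw [hO, top_le_iff] at this
  exact hfin this

/-- A module of finite length over a PID has a diagonal presentation. -/
theorem exists_diag_presentation (hO : Module.length 𝒪 𝒪 = ⊤)
    {Φ : Type} [AddCommGroup Φ] [Module 𝒪 Φ] (hfin : Module.length 𝒪 Φ ≠ ⊤) :
    ∃ (ι : Type) (_ : Fintype ι) (_ : DecidableEq ι) (g : ι → Φ) (c : ι → 𝒪),
      Submodule.span 𝒪 (Set.range g) = ⊤ ∧ (∀ i, c i • g i = 0) ∧
      Module.length 𝒪 Φ = Module.length 𝒪 (𝒪 ⧸ Ideal.span {∏ i, c i}) := by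
  classical
  have hfl : IsFiniteLength 𝒪 Φ := Module.length_ne_top_iff.mp hfin
  obtain ⟨hN, hA⟩ := isFiniteLength_iff_isNoetherian_isArtinian.mp hfl
  haveI : Module.Finite 𝒪 Φ := inferInstance
  have htors := isTorsion_of_length_ne_top hO hfin
  obtain ⟨ι, hι, p, hp, e, ⟨E⟩⟩ := Module.equiv_directSum_of_isTorsion htors
  let Q : ι → Type := fun i => 𝒪 ⧸ Submodule.span 𝒪 {p i ^ e i}
  let u : ι → (⨁ i, Q i) := fun i => DirectSum.lof 𝒪 ι Q i (Submodule.Quotient.mk 1)
  refine ⟨ι, hι, inferInstance, fun i => E.symm (u i), fun i => p i ^ e i, ?_, ?_, ?_⟩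
  · -- generators
    rw [eq_top_iff]
    intro y _
    have hy : E y ∈ Submodule.span 𝒪 (Set.range u) := by
      induction E y using DirectSum.induction_on with
      | zero => exact Submodule.zero_mem _
      | of i q =>
        obtain ⟨a, rfl⟩ := Submodule.Quotient.mk_surjective _ q
        have h1 : DirectSum.of Q i (Submodule.Quotient.mk a) = a • u i := by
          show DirectSum.lof 𝒪 ι Q i (Submodule.Quotient.mk a) = a • u i
          rw [← map_smul]
          congr 1
          rw [← Submodule.Quotient.mk_smul, smul_eq_mul, mul_one]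
        rw [h1]
        exact Submodule.smul_mem _ _ (Submodule.subset_span ⟨i, rfl⟩)
      | add a b ha hb => exact Submodule.add_mem _ ha hb
    have h2 : y = E.symm (E y) := (E.symm_apply_apply y).symm
    rw [h2]
    have h3 : Submodule.map (E.symm : (⨁ i, Q i) →ₗ[𝒪] Φ) (Submodule.span 𝒪 (Set.range u)) =
        Submodule.span 𝒪 (Set.range fun i => E.symm (u i)) := by
      rw [Submodule.map_span, ← Set.range_comp]
      rfl
    rw [← h3]
    exact Submodule.mem_map_of_mem hy
  · intro i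
    rw [← map_smul]
    have h1 : (p i ^ e i) • u i = 0 := by
      show (p i ^ e i) • DirectSum.lof 𝒪 ι Q i (Submodule.Quotient.mk 1) = 0
      rw [← map_smul, ← Submodule.Quotient.mk_smul, smul_eq_mul, mul_one]
      have : (Submodule.Quotient.mk (p i ^ e i) : Q i) = 0 := by
        rw [Submodule.Quotient.mk_eq_zero]
        exact Submodule.mem_span_singleton_self _
      rw [this, map_zero]
    rw [h1, map_zero]
  · rw [E.length_eq, (DirectSum.linearEquivFunOnFintype 𝒪 ι Q).length_eq,
      Module.length_pi_of_fintype]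
    have h1 := ord_prod (Finset.univ : Finset ι) (fun i => p i ^ e i)
      (fun i _ => pow_ne_zero _ (hp i).ne_zero)
    show ∑ i, Ring.ord 𝒪 (p i ^ e i) = Ring.ord 𝒪 (∏ i, p i ^ e i)
    rw [h1]

end PID

/-! ### The determinant trick -/

section Det

variable {R : Type} [CommRing R] {ι : Type} [Fintype ι] [DecidableEq ι]

theorem det_mul_eq_zero_of_mulVec_eq_zero (M : Matrix ι ι R) (x : ι → R)
    (h : M.mulVec x = 0) (i : ι) : M.det * x i = 0 := by
  have h1 := congrArg (M.adjugate.mulVec) h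
  rw [Matrix.mulVec_mulVec, Matrix.adjugate_mul, Matrix.mulVec_zero, Matrix.smul_mulVec,
    Matrix.one_mulVec] at h1
  have h2 := congrFun h1 i
  simpa using h2

theorem det_mul_eq_zero_of_mem_span (M : Matrix ι ι R) (x : ι → R)
    (h : M.mulVec x = 0) {y : R} (hy : y ∈ Ideal.span (Set.range x)) : M.det * y = 0 := by
  induction hy using Submodule.span_induction with
  | mem z hz =>
    obtain ⟨i, rfl⟩ := hz
    exact det_mul_eq_zero_of_mulVec_eq_zero M x h i
  | zero => rw [mul_zero]
  | add a b _ _ ha hb => rw [mul_add, ha, hb, add_zero]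
  | smul a b _ hb =>
    rw [smul_eq_mul, mul_left_comm, hb, mul_zero]

end Det

/-! ### The determinant data of an augmentation with cotangent space of finite length -/

section Data

variable {𝒪 : Type} [CommRing 𝒪] [IsDomain 𝒪] [IsPrincipalIdealRing 𝒪]
  {R : Type} [CommRing R] [Algebra 𝒪 R]

theorem exists_det_data (hO : Module.length 𝒪 𝒪 = ⊤) (π : R →ₐ[𝒪] 𝒪)
    (hfg : (RingHom.ker (π : R →+* 𝒪)).FG) (hfin : cotLength π ≠ ⊤) :
    ∃ (ι : Type) (_ : Fintype ι) (_ : DecidableEq ι) (x : ι → R) (M : Matrix ι ι R) (t : R),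
      (∀ i, x i ∈ RingHom.ker (π : R →+* 𝒪)) ∧ π t = 1 ∧
      (∀ y ∈ RingHom.ker (π : R →+* 𝒪), t * y ∈ Ideal.span (Set.range x)) ∧
      M.mulVec x = 0 ∧
      cotLength π = Module.length 𝒪 (𝒪 ⧸ Ideal.span {π M.det}) := by
  classical
  set 𝔭 : Ideal R := RingHom.ker (π : R →+* 𝒪) with h𝔭
  obtain ⟨ι, hι, hdec, g, c, hspan, hrel, hlen⟩ :=
    exists_diag_presentation (Φ := 𝔭.Cotangent) hO hfin
  -- lifts of the generators
  have hx' : ∀ i, ∃ x' : 𝔭, 𝔭.toCotangent x' = g i := fun i => 𝔭.toCotangent_surjective (g i)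
  choose x' hx'g using hx'
  let x : ι → R := fun i => (x' i : R)
  let N₀ : Ideal R := Ideal.span (Set.range x)
  have hxN₀ : ∀ i, x i ∈ N₀ := fun i => Ideal.subset_span ⟨i, rfl⟩
  -- `𝔭 ≤ N₀ + 𝔭²`
  have h1 : ∀ y ∈ 𝔭, ∃ n ∈ N₀, y - n ∈ 𝔭 ^ 2 := by
    intro y hy
    have hmem : 𝔭.toCotangent ⟨y, hy⟩ ∈ Submodule.span 𝒪 (Set.range g) := by
      rw [hspan]; exact Submodule.mem_top
    obtain ⟨o, ho⟩ := (Submodule.mem_span_range_iff_exists_fun 𝒪).mp hmem
    refine ⟨∑ i, algebraMap 𝒪 R (o i) * x i, ?_, ?_⟩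
    · exact Ideal.sum_mem _ fun i _ => Ideal.mul_mem_left _ _ (hxN₀ i)
    · have h2 : 𝔭.toCotangent (⟨y, hy⟩ - ∑ i, o i • x' i) = 0 := by
        rw [map_sub, map_sum, sub_eq_zero, ← ho]
        refine Finset.sum_congr rfl fun i _ => ?_
        rw [← hx'g i]
        exact (LinearMap.map_smul_of_tower 𝔭.toCotangent (o i) (x' i)).symm
      rw [Ideal.toCotangent_eq_zero] at h2
      have h3 : ((⟨y, hy⟩ - ∑ i, o i • x' i : 𝔭) : R) = y - ∑ i, algebraMap 𝒪 R (o i) * x i := by
        rw [Submodule.coe_sub, Submodule.coe_sum]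
        congr 1
        refine Finset.sum_congr rfl fun i _ => ?_
        rw [Submodule.coe_smul_of_tower, Algebra.smul_def]
      rw [h3] at h2
      exact h2
  -- Nakayama
  obtain ⟨t, ht1, htN⟩ : ∃ t : R, t - 1 ∈ 𝔭 ∧ ∀ y ∈ 𝔭, t * y ∈ N₀ := by
    let N : Submodule R (R ⧸ N₀) := Submodule.map (Submodule.mkQ N₀) 𝔭
    have hNfg : N.FG := Submodule.FG.map _ hfg
    have hle : N ≤ 𝔭 • N := by
      rintro _ ⟨y, hy, rfl⟩
      obtain ⟨n, hn, hyn⟩ := h1 y hy
      have h2 : Submodule.mkQ N₀ y = Submodule.mkQ N₀ (y - n) := by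
        rw [map_sub, Submodule.mkQ_apply, Submodule.mkQ_apply,
          (Submodule.Quotient.mk_eq_zero N₀).mpr hn, sub_zero]
      rw [h2]
      rw [pow_two] at hyn
      refine Submodule.mul_induction_on hyn ?_ ?_
      · intro a ha b hb
        have h3 : Submodule.mkQ N₀ (a * b) = a • Submodule.mkQ N₀ b := by
          rw [← smul_eq_mul, map_smul]
        rw [h3]
        exact Submodule.smul_mem_smul ha (Submodule.mem_map_of_mem hb)
      · intro a b ha hb
        rw [map_add]
        exact Submodule.add_mem _ ha hb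
    obtain ⟨t, ht1, ht⟩ :=
      Submodule.exists_sub_one_mem_and_smul_eq_zero_of_fg_of_le_smul 𝔭 N hNfg hle
    refine ⟨t, ht1, fun y hy => ?_⟩
    have h2 := ht (Submodule.mkQ N₀ y) (Submodule.mem_map_of_mem hy)
    rw [← map_smul, Submodule.mkQ_apply, Submodule.Quotient.mk_eq_zero, smul_eq_mul] at h2
    exact h2
  have hπt : π t = 1 := by
    have h2 : (π : R →+* 𝒪) (t - 1) = 0 := (RingHom.mem_ker).mp ht1
    rw [map_sub, map_one, sub_eq_zero] at h2
    exact h2
  -- the relations
  have hrel2 : ∀ i, algebraMap 𝒪 R (c i) * x i ∈ 𝔭 ^ 2 := by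
    intro i
    have h2 : 𝔭.toCotangent (c i • x' i) = 0 := by
      rw [LinearMap.map_smul_of_tower, hx'g, hrel]
    rw [Ideal.toCotangent_eq_zero, Submodule.coe_smul_of_tower, Algebra.smul_def] at h2
    exact h2
  have hsq : ∀ z ∈ 𝔭 ^ 2, t * z ∈ 𝔭 • N₀ := by
    intro z hz
    rw [pow_two] at hz
    refine Submodule.mul_induction_on hz ?_ ?_
    · intro a ha b hb
      have h3 : t * (a * b) = a • (t * b) := by rw [smul_eq_mul]; ring
      rw [h3]
      exact Submodule.smul_mem_smul ha (htN b hb)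
    · intro a b ha hb
      rw [mul_add]
      exact Submodule.add_mem _ ha hb
  have hcoef : ∀ i, ∃ a : ι → R, (∀ j, a j ∈ 𝔭) ∧
      t * (algebraMap 𝒪 R (c i) * x i) = ∑ j, a j * x j := by
    intro i
    obtain ⟨a, ha, hsum⟩ := (Submodule.mem_ideal_smul_span_iff_exists_sum 𝔭 x _).mp
      (hsq _ (hrel2 i))
    refine ⟨fun j => a j, ha, ?_⟩
    rw [← hsum, Finsupp.sum_fintype _ _ (fun j => by rw [zero_smul])]
    rfl
  choose a ha hasum using hcoef
  let M : Matrix ι ι R :=
    Matrix.diagonal (fun i => t * algebraMap 𝒪 R (c i)) - Matrix.of a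
  have hMx : M.mulVec x = 0 := by
    ext i
    rw [Matrix.sub_mulVec, Pi.sub_apply, Matrix.mulVec_diagonal, Pi.zero_apply, sub_eq_zero]
    rw [mul_assoc, hasum i]
    rfl
  have hdet : π M.det = ∏ i, c i := by
    have h2 : π M.det = ((π : R →+* 𝒪).mapMatrix M).det := by
      rw [← RingHom.map_det]; rfl
    have h3 : (π : R →+* 𝒪).mapMatrix M = Matrix.diagonal c := by
      ext i j
      rw [RingHom.mapMatrix_apply, Matrix.map_apply]
      have h4 : (π : R →+* 𝒪) (a i j) = 0 := (RingHom.mem_ker).mp (ha i j)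
      have h7 : M i j = Matrix.diagonal (fun i => t * algebraMap 𝒪 R (c i)) i j - a i j := rfl
      rw [h7, map_sub, h4, sub_zero]
      by_cases hij : i = j
      · subst hij
        rw [Matrix.diagonal_apply_eq, Matrix.diagonal_apply_eq, map_mul]
        have h5 : (π : R →+* 𝒪) t = 1 := hπt
        have h6 : (π : R →+* 𝒪) (algebraMap 𝒪 R (c i)) = c i := by
          show π (algebraMap 𝒪 R (c i)) = c i
          rw [AlgHom.commutes]; rfl
        rw [h5, h6, one_mul]
      · rw [Matrix.diagonal_apply_ne _ hij, Matrix.diagonal_apply_ne _ hij, map_zero]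
    rw [h2, h3, Matrix.det_diagonal]
  refine ⟨ι, hι, hdec, x, M, t, fun i => (x' i).2, hπt, htN, hMx, ?_⟩
  rw [hdet]
  exact hlen

end Data

end Fermat.Agent.S59.NumCrit
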