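/-
Cluster J (S59), J8, leaf (NC1-W): **Wiebe's criterion**, Artinian form, for algebras over a
field with the same residue field.  Owner: helper31.  Blueprint: NOTES/blueprint-J-S59-Wiebe.md.

Let `(A, 𝔪)` be an Artinian local `k`-algebra with residue field `k`, `𝔪 = (x_1, …, x_n)`, and `M`
an `n × n` matrix of relations, `M x = 0`.  Then `det M` lies in every nonzero ideal of `A`.
(`det M` kills `𝔪` by Cramer, so it lies in the socle; the content is: if `det M ≠ 0` then the
socle of `A` is the line spanned by `det M`, i.e. `A` is a complete intersection, hence Gorenstein.)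
Reference: H. Wiebe, Math. Ann. 179 (1969); Bruns-Herzog, Theorem 2.3.16.

Proof: present `A` as a quotient of `S = k⟦X⟧` (`Wiebe/PowerSeries.lean`), lift `M` to `M̃`, perturb
`f = M̃ X` to a regular sequence `h = f + X ^ a` with `S/(h)` Artinian with socle of length `≤ 1`
(`Wiebe/Core.lean`); `det (M̃ + diag (X ^ (a - 1)))` is a socle element of `S/(h)` lifting `det M`,
and the preimage of a nonzero ideal of `A` contains a nonzero socle element of `S/(h)`.
-/
import Fermat.Agent.S59.NumCrit.Wiebe.Core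
import Fermat.Agent.S59.NumCrit.Wiebe.PowerSeries

set_option autoImplicit false
set_option linter.unusedSectionVars false
set_option linter.unusedVariables false
set_option linter.style.haveILetI false

namespace Fermat.Agent.S59.NumCrit

open IsLocalRing

section SocleElt

variable {S : Type} [CommRing S] [IsLocalRing S]

/-- If `S ⧸ H` is Artinian then a power of the maximal ideal lies in `H`. -/
theorem exists_pow_maximalIdeal_le (H : Ideal S) (hH : H ≠ ⊤) [IsArtinianRing (S ⧸ H)] :
    ∃ t : ℕ, maximalIdeal S ^ t ≤ H := by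
  haveI : Nontrivial (S ⧸ H) := Ideal.Quotient.nontrivial_iff.mpr hH
  haveI : IsLocalRing (S ⧸ H) :=
    IsLocalRing.of_surjective' (Ideal.Quotient.mk H) Ideal.Quotient.mk_surjective
  obtain ⟨t, ht⟩ := (isArtinianRing_iff_isNilpotent_maximalIdeal (S ⧸ H)).mp inferInstance
  refine ⟨t, ?_⟩
  have hle : (maximalIdeal S).map (Ideal.Quotient.mk H) ≤ maximalIdeal (S ⧸ H) := by
    rw [Ideal.map_le_iff_le_comap]
    intro a ha
    rw [Ideal.mem_comap]
    haveI hq : IsLocalHom (Ideal.Quotient.mk H) :=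
      IsLocalHom.of_surjective _ Ideal.Quotient.mk_surjective
    rw [IsLocalRing.mem_maximalIdeal, mem_nonunits_iff] at ha ⊢
    exact fun hu => ha (hq.map_nonunit _ hu)
  have h1 : (maximalIdeal S ^ t).map (Ideal.Quotient.mk H) ≤ ⊥ := by
    rw [Ideal.map_pow]
    calc (maximalIdeal S).map (Ideal.Quotient.mk H) ^ t ≤ maximalIdeal (S ⧸ H) ^ t :=
          Ideal.pow_right_mono hle t
      _ = ⊥ := ht
  intro a ha
  have h2 := h1 (Ideal.mem_map_of_mem _ ha)
  rw [Ideal.mem_bot] at h2
  exact Ideal.Quotient.eq_zero_iff_mem.mp h2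

/-- An ideal not contained in `H` contains a nonzero socle element of `S ⧸ H`. -/
theorem exists_socle_elt (H J : Ideal S) {t : ℕ} (ht : maximalIdeal S ^ t ≤ H)
    {u : S} (huJ : u ∈ J) (huH : u ∉ H) :
    ∃ v ∈ J, v ∉ H ∧ ∀ m ∈ maximalIdeal S, m * v ∈ H := by
  have key : ∀ t : ℕ, ∀ u ∈ J, u ∉ H → (∀ m ∈ maximalIdeal S ^ t, m * u ∈ H) →
      ∃ v ∈ J, v ∉ H ∧ ∀ m ∈ maximalIdeal S, m * v ∈ H := by
    intro t
    induction t with
    | zero =>
      intro u _ huH hu
      exfalso
      apply huH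
      have := hu 1 (by rw [pow_zero, Ideal.one_eq_top]; exact Submodule.mem_top (R := S) (M := S))
      rwa [one_mul] at this
    | succ t ih =>
      intro u huJ huH hu
      by_cases hall : ∀ m ∈ maximalIdeal S, m * u ∈ H
      · exact ⟨u, huJ, huH, hall⟩
      · push Not at hall
        obtain ⟨m, hm, hmu⟩ := hall
        refine ih (m * u) (Ideal.mul_mem_left _ _ huJ) hmu ?_
        intro m' hm'
        rw [← mul_assoc]
        apply hu
        rw [pow_succ]
        exact Ideal.mul_mem_mul hm' hm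
  exact key t u huJ huH fun m hm => Ideal.mul_mem_right _ _ (ht hm)

end SocleElt

/-- Cramer's rule modulo an ideal. -/
theorem det_mul_mem_of_mulVec_mem {S : Type} [CommRing S] {n : ℕ}
    (M : Matrix (Fin n) (Fin n) S) (X : Fin n → S) (H : Ideal S)
    (h : ∀ i, M.mulVec X i ∈ H) (i : Fin n) : M.det * X i ∈ H := by
  have h1 : M.adjugate.mulVec (M.mulVec X) = M.det • X := by
    rw [Matrix.mulVec_mulVec, Matrix.adjugate_mul, Matrix.smul_mulVec, Matrix.one_mulVec]
  have h2 := congrFun h1 i
  simp only [Pi.smul_apply, smul_eq_mul] at h2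
  rw [← h2]
  simp only [Matrix.mulVec, dotProduct]
  exact Ideal.sum_mem _ fun j _ => Ideal.mul_mem_left _ _ (h j)

/-- **Wiebe's criterion** for `Fin n`-indexed generators. -/
theorem wiebe_det_mem_fin {k A : Type} [Field k] [CommRing A] [IsLocalRing A] [IsArtinianRing A]
    [Algebra k A] (hk : ∀ a : A, ∃ c : k, a - algebraMap k A c ∈ maximalIdeal A)
    {n : ℕ} (x : Fin n → A)
    (hx : Ideal.span (Set.range x) = maximalIdeal A) (M : Matrix (Fin n) (Fin n) A)
    (hM : M.mulVec x = 0) (𝔞 : Ideal A) (h𝔞 : 𝔞 ≠ ⊥) : M.det ∈ 𝔞 := by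
  classical
  -- the presentation
  obtain ⟨θ, hθs, hθX⟩ := exists_surjective_algHom_mvPowerSeries hk x hx
  set S := MvPowerSeries (Fin n) k with hS
  let X : Fin n → S := fun i => (MvPowerSeries.X i : S)
  have hXspan : Ideal.span (Set.range X) = maximalIdeal S :=
    mvPowerSeries_span_X_eq_maximalIdeal k n
  have hXreg : RingTheory.Sequence.IsRegular S (List.ofFn X) := mvPowerSeries_isRegular_X k n
  have hXm : ∀ i, X i ∈ maximalIdeal S := fun i => by
    rw [← hXspan]; exact Ideal.subset_span ⟨i, rfl⟩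
  -- nilpotency of `𝔪_A`
  obtain ⟨N0, hN0⟩ := (isArtinianRing_iff_isNilpotent_maximalIdeal A).mp inferInstance
  have hxm : ∀ i, x i ∈ maximalIdeal A := fun i => by
    rw [← hx]; exact Ideal.subset_span ⟨i, rfl⟩
  have hxpow : ∀ i (a : ℕ), N0 ≤ a → x i ^ a = 0 := by
    intro i a ha
    have h1 : x i ^ a ∈ maximalIdeal A ^ N0 :=
      Ideal.pow_le_pow_right ha (Ideal.pow_mem_pow (hxm i) a)
    rw [hN0] at h1
    simpa using h1
  -- lift of the matrix
  choose Mt hMt using fun i j => hθs (M i j)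
  let Mt' : Matrix (Fin n) (Fin n) S := Matrix.of Mt
  let f : Fin n → S := fun i => ∑ j, Mt i j * X j
  have hf : ∀ i, f i ∈ maximalIdeal S := fun i =>
    Ideal.sum_mem _ fun j _ => Ideal.mul_mem_left _ _ (hXm j)
  obtain ⟨a, ha, hArt, hSoc⟩ := exists_perturb X hXspan hXreg f hf (N0 + 1)
  set H : Ideal S := Ideal.span (Set.range fun i => f i + X i ^ a i) with hH
  let M' : Matrix (Fin n) (Fin n) S := Mt' + Matrix.diagonal fun i => X i ^ (a i - 1)
  have hM'X : ∀ i, M'.mulVec X i = f i + X i ^ a i := by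
    intro i
    have h1 : M'.mulVec X i = Mt'.mulVec X i + (Matrix.diagonal fun i => X i ^ (a i - 1)).mulVec X i := by
      simp only [M', Matrix.add_mulVec, Pi.add_apply]
    rw [h1, Matrix.mulVec_diagonal]
    have h2 : Mt'.mulVec X i = f i := by
      simp only [Matrix.mulVec, dotProduct, Mt', Matrix.of_apply, f]
    rw [h2]
    congr 1
    have h3 : a i = (a i - 1) + 1 := by have := ha i; omega
    conv_rhs => rw [h3, pow_succ]
  -- `θ` kills `H`
  have hθf : ∀ i, θ (f i) = 0 := by
    intro i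
    have h1 := congrFun hM i
    simp only [Matrix.mulVec, dotProduct, Pi.zero_apply] at h1
    simp only [f, map_sum, map_mul, hMt]
    rw [← h1]
    exact Finset.sum_congr rfl fun j _ => by rw [hθX]
  have hθH : ∀ s ∈ H, θ s = 0 := by
    intro s hs
    have h1 : H ≤ RingHom.ker (θ : S →+* A) := by
      rw [hH, Ideal.span_le]
      rintro _ ⟨i, rfl⟩
      rw [SetLike.mem_coe, RingHom.mem_ker]
      show θ (f i + X i ^ a i) = 0
      rw [map_add, hθf, map_pow, hθX, zero_add]
      exact hxpow i _ (by have := ha i; omega)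
    exact (RingHom.mem_ker).mp (h1 hs)
  -- `θ (det M') = det M`
  have hθdet : θ M'.det = M.det := by
    have h1 : (θ : S →+* A).mapMatrix M' = M := by
      ext i j
      simp only [RingHom.mapMatrix_apply, Matrix.map_apply, M', Matrix.add_apply, Mt',
        Matrix.of_apply, RingHom.coe_coe, map_add, hMt]
      by_cases hij : i = j
      · subst hij
        rw [Matrix.diagonal_apply_eq, map_pow, hθX, hxpow i _ (by have := ha i; omega), add_zero]
      · rw [Matrix.diagonal_apply_ne _ hij, map_zero, add_zero]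
    have h2 := RingHom.map_det (θ : S →+* A) M'
    rw [h1] at h2
    exact h2
  -- `det M'` is a socle element
  have hdetsoc : ∀ m ∈ maximalIdeal S, m * M'.det ∈ H := by
    intro m hm
    rw [← hXspan] at hm
    induction hm using Submodule.span_induction with
    | mem z hz =>
      obtain ⟨i, rfl⟩ := hz
      rw [mul_comm]
      apply det_mul_mem_of_mulVec_mem M' X H
      intro j
      rw [hM'X]
      exact Ideal.subset_span ⟨j, rfl⟩
    | zero => rw [zero_mul]; exact H.zero_mem
    | add y z _ _ hy hz => rw [add_mul]; exact H.add_mem hy hz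
    | smul c y _ hy => rw [smul_eq_mul, mul_assoc]; exact H.mul_mem_left _ hy
  -- a socle element in the preimage of `𝔞`
  obtain ⟨b, hb, hb0⟩ := Submodule.exists_mem_ne_zero_of_ne_bot h𝔞
  obtain ⟨u₀, hu₀⟩ := hθs b
  have hu₀J : u₀ ∈ 𝔞.comap (θ : S →+* A) := by
    rw [Ideal.mem_comap]
    show θ u₀ ∈ 𝔞
    rw [hu₀]; exact hb
  have hu₀H : u₀ ∉ H := fun h => hb0 (by rw [← hu₀]; exact hθH _ h)
  have hHtop : H ≠ ⊤ := fun h => hu₀H (h ▸ Submodule.mem_top)
  obtain ⟨t, ht⟩ := exists_pow_maximalIdeal_le H hHtop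
  obtain ⟨v, hvJ, hvH, hvsoc⟩ := exists_socle_elt H _ ht hu₀J hu₀H
  have h1 := hSoc M'.det v hdetsoc hvsoc hvH
  have h2 : H ⊔ Ideal.span {v} ≤ 𝔞.comap (θ : S →+* A) := by
    apply sup_le
    · intro s hs
      rw [Ideal.mem_comap]
      show θ s ∈ 𝔞
      rw [hθH s hs]; exact 𝔞.zero_mem
    · rw [Ideal.span_singleton_le_iff_mem]; exact hvJ
  have h3 := h2 h1
  rw [Ideal.mem_comap] at h3
  have h4 : θ M'.det ∈ 𝔞 := h3
  rwa [hθdet] at h4

/-- **Wiebe's criterion** (Artinian local algebra over a field, residue field the ground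
field). -/
theorem wiebe_det_mem {k A : Type} [Field k] [CommRing A] [IsLocalRing A] [IsArtinianRing A]
    [Algebra k A] (hk : ∀ a : A, ∃ c : k, a - algebraMap k A c ∈ maximalIdeal A)
    {ι : Type} [Fintype ι] [DecidableEq ι] (x : ι → A)
    (hx : Ideal.span (Set.range x) = maximalIdeal A) (M : Matrix ι ι A)
    (hM : M.mulVec x = 0) (𝔞 : Ideal A) (h𝔞 : 𝔞 ≠ ⊥) : M.det ∈ 𝔞 := by
  classical
  let e : ι ≃ Fin (Fintype.card ι) := Fintype.equivFin ι
  have h1 : Ideal.span (Set.range (x ∘ e.symm)) = maximalIdeal A := by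
    have : Set.range (x ∘ e.symm) = Set.range x := e.symm.surjective.range_comp x
    rw [this]; exact hx
  have h2 : (Matrix.reindex e e M).mulVec (x ∘ e.symm) = 0 := by
    ext i
    have h3 := congrFun hM (e.symm i)
    simp only [Matrix.mulVec, dotProduct, Pi.zero_apply] at h3 ⊢
    rw [← h3]
    simp only [Matrix.reindex_apply, Matrix.submatrix_apply, Function.comp_apply]
    exact Fintype.sum_equiv e.symm _ _ fun j => rfl
  have h4 := wiebe_det_mem_fin hk (x ∘ e.symm) h1 (Matrix.reindex e e M) h2 𝔞 h𝔞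
  rwa [Matrix.det_reindex_self] at h4

end Fermat.Agent.S59.NumCrit
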