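/-
Cluster J (S59), J8, leaf (NC1): the numerical criterion of Wiles and Lenstra.  Owner: helper31.
Reference: Darmon-Diamond-Taylor, Theorem 5.3; Lenstra, "Complete intersections and Gorenstein
rings"; de Smit-Rubin-Schoof.

* `cotLength_le_of_surjective`, `congLength_le_cotLength`: the two easy inequalities (sorry-free;
  the second by the determinant trick, `WLAux.lean`).
* `injective_of_cotLength_le`: the criterion, reduced to Wiebe's criterion
  `NumCrit.wiebe_det_mem` (`Wiebe.lean`, for algebras over the residue field of `𝒪`; its only open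
  inputs are the power series facts PS1-PS3 of `Wiebe/PowerSeries.lean`): the determinant trick produces
  generators `x` of `𝔭_R`, a square matrix of relations `M` with `π(det M)` a generator of `η_T`;
  modulo a uniformizer this is Wiebe's situation in `R ⧸ ϖ R`, whence `ker φ ⊆ ϖ R`, and Nakayama.
-/
import Fermat.Agent.S59.NumCrit.WLAux
import Fermat.Agent.S59.NumCrit.Wiebe

set_option autoImplicit false
set_option linter.style.haveILetI false
set_option linter.unusedVariables false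
set_option linter.unusedSectionVars false

namespace Fermat.Agent.S59

open IsLocalRing

namespace NumCrit

theorem length_self_eq_top {𝒪 : Type} [CommRing 𝒪] [IsDomain 𝒪] [IsDiscreteValuationRing 𝒪] :
    Module.length 𝒪 𝒪 = ⊤ := by
  by_contra h
  have hfl := Module.length_ne_top_iff.mp h
  obtain ⟨_, hA⟩ := isFiniteLength_iff_isNoetherian_isArtinian.mp hfl
  haveI : IsArtinianRing 𝒪 := hA
  exact IsDiscreteValuationRing.not_isField 𝒪 (IsArtinianRing.isField_of_isDomain 𝒪)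

theorem length_quotient_le_of_le {𝒪 : Type} [CommRing 𝒪] {I J : Ideal 𝒪} (h : I ≤ J) :
    Module.length 𝒪 (𝒪 ⧸ J) ≤ Module.length 𝒪 (𝒪 ⧸ I) := by
  refine Module.length_le_of_surjective (Submodule.mapQ I J LinearMap.id h) ?_
  intro y
  obtain ⟨a, rfl⟩ := Submodule.Quotient.mk_surjective _ y
  exact ⟨Submodule.Quotient.mk a, rfl⟩

section Noeth

variable {A : Type} [CommRing A] [IsLocalRing A] [IsNoetherianRing A]

theorem wl_maximalIdeal_pow_ne_top {n : ℕ} (hn : n ≠ 0) : maximalIdeal A ^ n ≠ ⊤ := by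
  intro h
  have hle : maximalIdeal A ^ n ≤ maximalIdeal A := Ideal.pow_le_self hn
  rw [h] at hle
  exact (IsLocalRing.maximalIdeal.isMaximal A).ne_top (top_le_iff.1 hle)

theorem wl_isLocalRing_quotient {I : Ideal A} (hI : I ≠ ⊤) : IsLocalRing (A ⧸ I) :=
  haveI : Nontrivial (A ⧸ I) := Ideal.Quotient.nontrivial_iff.mpr hI
  IsLocalRing.of_surjective' (Ideal.Quotient.mk _) Ideal.Quotient.mk_surjective

theorem wl_maximalIdeal_quotient {I : Ideal A} [IsLocalRing (A ⧸ I)] :
    maximalIdeal (A ⧸ I) = (maximalIdeal A).map (Ideal.Quotient.mk I) := by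
  apply le_antisymm
  · intro y hy
    obtain ⟨a, rfl⟩ := Ideal.Quotient.mk_surjective y
    apply Ideal.mem_map_of_mem
    rw [IsLocalRing.mem_maximalIdeal, mem_nonunits_iff] at hy ⊢
    exact fun hu => hy (hu.map _)
  · rw [Ideal.map_le_iff_le_comap]
    intro a ha
    rw [Ideal.mem_comap]
    haveI hq : IsLocalHom (Ideal.Quotient.mk I) :=
      IsLocalHom.of_surjective _ Ideal.Quotient.mk_surjective
    rw [IsLocalRing.mem_maximalIdeal, mem_nonunits_iff] at ha ⊢
    exact fun hu => ha (hq.map_nonunit _ hu)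

theorem wl_isArtinianRing_quotient_pow (n : ℕ) [IsLocalRing (A ⧸ maximalIdeal A ^ n)] :
    IsArtinianRing (A ⧸ maximalIdeal A ^ n) := by
  rw [isArtinianRing_iff_isNilpotent_maximalIdeal]
  refine ⟨n, ?_⟩
  rw [Ideal.zero_eq_bot, wl_maximalIdeal_quotient, ← Ideal.map_pow]
  exact Ideal.map_quotient_self _

/-- **Wiebe's criterion**, Noetherian form: if `𝔪 = (x)`, `M x = 0` and `det M ∉ 𝔞`, then
`𝔞 = 0`. -/
theorem eq_bot_of_det_notMem {k : Type} [Field k] [Algebra k A]
    (hk : ∀ a : A, ∃ c : k, a - algebraMap k A c ∈ maximalIdeal A)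
    {ι : Type} [Fintype ι] [DecidableEq ι] (x : ι → A)
    (hx : Ideal.span (Set.range x) = maximalIdeal A) (M : Matrix ι ι A)
    (hM : M.mulVec x = 0) (𝔞 : Ideal A) (hd : M.det ∉ 𝔞) : 𝔞 = ⊥ := by
  have hd0 : M.det ≠ 0 := fun h => hd (h ▸ 𝔞.zero_mem)
  -- Krull
  have hK : (⨅ i : ℕ, maximalIdeal A ^ i) = ⊥ :=
    Ideal.iInf_pow_eq_bot_of_isLocalRing (maximalIdeal A) (maximalIdeal.isMaximal A).ne_top
  obtain ⟨N, hN⟩ : ∃ N : ℕ, M.det ∉ maximalIdeal A ^ N := by
    by_contra hcon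
    push Not at hcon
    apply hd0
    have : M.det ∈ (⨅ i : ℕ, maximalIdeal A ^ i) := by
      rw [Ideal.mem_iInf]; exact hcon
    rw [hK] at this
    exact this
  -- step A: `𝔪 ^ N ≤ 𝔪 ^ (N + 1)`
  have hA : maximalIdeal A ^ N ≤ maximalIdeal A ^ (N + 1) := by
    haveI hl : IsLocalRing (A ⧸ maximalIdeal A ^ (N + 1)) :=
      wl_isLocalRing_quotient (wl_maximalIdeal_pow_ne_top (Nat.succ_ne_zero N))
    haveI : IsArtinianRing (A ⧸ maximalIdeal A ^ (N + 1)) := wl_isArtinianRing_quotient_pow _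
    let q := Ideal.Quotient.mk (maximalIdeal A ^ (N + 1))
    have hx' : Ideal.span (Set.range fun i => q (x i)) =
        maximalIdeal (A ⧸ maximalIdeal A ^ (N + 1)) := by
      rw [wl_maximalIdeal_quotient]
      have h0 : (maximalIdeal A).map q = (Ideal.span (Set.range x)).map q := by rw [hx]
      show _ = (maximalIdeal A).map q
      rw [h0, Ideal.map_span, ← Set.range_comp]
      rfl
    have hM' : (q.mapMatrix M).mulVec (fun i => q (x i)) = 0 := by
      ext i
      have h1 := congrArg q (congrFun hM i)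
      simp only [Matrix.mulVec, dotProduct, map_sum, map_mul, Pi.zero_apply, map_zero] at h1
      simp only [Matrix.mulVec, dotProduct, RingHom.mapMatrix_apply, Matrix.map_apply,
        Pi.zero_apply]
      exact h1
    by_contra hcon
    have hne : (maximalIdeal A ^ N).map q ≠ ⊥ := by
      intro h
      apply hcon
      rw [Ideal.map_eq_bot_iff_le_ker, Ideal.mk_ker] at h
      exact h
    have hk' : ∀ a : A ⧸ maximalIdeal A ^ (N + 1), ∃ c : k,
        a - algebraMap k (A ⧸ maximalIdeal A ^ (N + 1)) c ∈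
          maximalIdeal (A ⧸ maximalIdeal A ^ (N + 1)) := by
      intro a'
      obtain ⟨a, rfl⟩ := Ideal.Quotient.mk_surjective a'
      obtain ⟨c, hc⟩ := hk a
      refine ⟨c, ?_⟩
      rw [wl_maximalIdeal_quotient]
      have : Ideal.Quotient.mk (maximalIdeal A ^ (N + 1)) a -
          algebraMap k (A ⧸ maximalIdeal A ^ (N + 1)) c = q (a - algebraMap k A c) := by
        rw [map_sub]; rfl
      rw [this]
      exact Ideal.mem_map_of_mem _ hc
    have h2 := wiebe_det_mem hk' _ hx' (q.mapMatrix M) hM' _ hne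
    rw [← RingHom.map_det] at h2
    obtain ⟨a, ha, haq⟩ := (Ideal.mem_map_iff_of_surjective q Ideal.Quotient.mk_surjective).mp h2
    have h3 : a - M.det ∈ maximalIdeal A ^ (N + 1) := by
      rw [← Ideal.Quotient.eq_zero_iff_mem, map_sub, sub_eq_zero]
      exact haq
    have h4 : maximalIdeal A ^ (N + 1) ≤ maximalIdeal A ^ N := Ideal.pow_le_pow_right (Nat.le_succ N)
    apply hN
    have : M.det = a - (a - M.det) := by ring
    rw [this]
    exact Ideal.sub_mem _ ha (h4 h3)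
  -- step B: `𝔪 ^ N = 0`
  have hB : maximalIdeal A ^ N = ⊥ := by
    apply Submodule.eq_bot_of_le_smul_of_le_jacobson_bot (maximalIdeal A) _
      (IsNoetherian.noetherian _)
    · rw [pow_succ'] at hA
      exact hA
    · exact IsLocalRing.maximalIdeal_le_jacobson _
  -- step C
  haveI : IsArtinianRing A := by
    rw [isArtinianRing_iff_isNilpotent_maximalIdeal]
    exact ⟨N, hB⟩
  by_contra h𝔞
  exact hd (wiebe_det_mem hk x hx M hM 𝔞 h𝔞)

end Noeth

theorem ord_ne_top_of_ne_zero {𝒪 : Type} [CommRing 𝒪] [IsDomain 𝒪] [IsNoetherianRing 𝒪]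
    [Ring.KrullDimLE 1 𝒪] {h : 𝒪} (hh : h ≠ 0) :
    Module.length 𝒪 (𝒪 ⧸ Ideal.span {h}) ≠ ⊤ :=
  Ring.ord_ne_top (mem_nonZeroDivisors_of_ne_zero hh)

end NumCrit

/-- Easy part 1: `Φ_R ↠ Φ_T` for a surjection `R ↠ T` of augmented algebras. -/
theorem cotLength_le_of_surjective {𝒪 : Type} [CommRing 𝒪]
    {R T : Type} [CommRing R] [Algebra 𝒪 R] [CommRing T] [Algebra 𝒪 T]
    (φ : R →ₐ[𝒪] T) (hφ : Function.Surjective φ) (π : T →ₐ[𝒪] 𝒪) :
    cotLength π ≤ cotLength (π.comp φ) := by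
  have hle : RingHom.ker ((π.comp φ : R →ₐ[𝒪] 𝒪) : R →+* 𝒪) ≤
      (RingHom.ker (π : T →+* 𝒪)).comap φ := by
    intro x hx
    rw [Ideal.mem_comap, RingHom.mem_ker]
    rw [RingHom.mem_ker] at hx
    exact hx
  have hsurj : Function.Surjective (Ideal.mapCotangent (R := 𝒪) _ _ φ hle) := by
    intro y
    obtain ⟨⟨t, ht⟩, rfl⟩ := Ideal.toCotangent_surjective _ y
    obtain ⟨r, rfl⟩ := hφ t
    refine ⟨Ideal.toCotangent _ ⟨r, ?_⟩, ?_⟩
    · rw [RingHom.mem_ker] at ht ⊢
      exact ht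
    · rw [Ideal.mapCotangent_toCotangent]
  exact Module.length_le_of_surjective _ hsurj


/-- Easy part 2 (Fitting ideals): `length (𝒪/η_T) ≤ length Φ_T`. -/
theorem congLength_le_cotLength {𝒪 : Type} [CommRing 𝒪] [IsDomain 𝒪]
    [IsDiscreteValuationRing 𝒪]
    {T : Type} [CommRing T] [Algebra 𝒪 T] [Module.Finite 𝒪 T] [Module.Free 𝒪 T]
    (π : T →ₐ[𝒪] 𝒪) :
    congLength π ≤ cotLength π := by
  by_cases hfin : cotLength π = ⊤
  · rw [hfin]; exact le_top
  haveI : IsNoetherianRing T := IsNoetherianRing.of_finite 𝒪 T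
  obtain ⟨ι, hι, hdec, x, M, t, hx, hπt, htN, hMx, hlen⟩ :=
    NumCrit.exists_det_data NumCrit.length_self_eq_top π (IsNoetherian.noetherian _) hfin
  rw [hlen]
  have hD : M.det * t ∈ Module.annihilator T (RingHom.ker (π : T →+* 𝒪)) := by
    rw [Module.mem_annihilator]
    rintro ⟨y, hy⟩
    apply Subtype.ext
    show M.det * t * y = 0
    rw [mul_assoc]
    exact NumCrit.det_mul_eq_zero_of_mem_span M x hMx (htN y hy)
  have hmem : π M.det ∈ congruenceIdeal π := by
    have h1 := Ideal.mem_map_of_mem (π : T →+* 𝒪) hD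
    have h2 : (π : T →+* 𝒪) (M.det * t) = π M.det := by
      show π (M.det * t) = π M.det
      rw [map_mul, hπt, mul_one]
    rw [h2] at h1
    exact h1
  exact NumCrit.length_quotient_le_of_le ((Ideal.span_singleton_le_iff_mem _).mpr hmem)


/-- **Numerical criterion** (Wiles, Lenstra): `R ↠ T` with `T` finite free over `𝒪`, `η_T ≠ 0` and
`length Φ_R ≤ length (𝒪/η_T)` is an isomorphism. -/
theorem injective_of_cotLength_le {𝒪 : Type} [CommRing 𝒪] [IsDomain 𝒪]
    [IsDiscreteValuationRing 𝒪] [IsAdicComplete (maximalIdeal 𝒪) 𝒪]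
    {R T : Type} [CommRing R] [IsLocalRing R] [IsNoetherianRing R]
    [IsAdicComplete (maximalIdeal R) R] [Algebra 𝒪 R]
    [CommRing T] [Algebra 𝒪 T] [Module.Finite 𝒪 T] [Module.Free 𝒪 T]
    (φ : R →ₐ[𝒪] T) (hφ : Function.Surjective φ) (π : T →ₐ[𝒪] 𝒪)
    (hη : congruenceIdeal π ≠ ⊥)
    (hnum : cotLength (π.comp φ) ≤ congLength π) :
    Function.Injective φ := by
  classical
  -- the congruence ideal is principal, generated by `h ≠ 0`
  obtain ⟨h, hh⟩ : ∃ h : 𝒪, congruenceIdeal π = Ideal.span {h} :=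
    ⟨_, (Ideal.span_singleton_generator (congruenceIdeal π)).symm⟩
  have hh0 : h ≠ 0 := by
    rintro rfl
    apply hη
    rw [hh, Ideal.span_singleton_eq_bot]
  have hcong : congLength π ≠ ⊤ := by
    unfold congLength
    rw [hh]
    exact NumCrit.ord_ne_top_of_ne_zero hh0
  have hfin : cotLength (π.comp φ) ≠ ⊤ := fun hc => hcong (top_le_iff.mp (hc ▸ hnum))
  set πR : R →ₐ[𝒪] 𝒪 := π.comp φ with hπR
  obtain ⟨ι, hι, hdec, x, M, t, hx, hπt, htN, hMx, hlen⟩ :=
    NumCrit.exists_det_data NumCrit.length_self_eq_top πR (IsNoetherian.noetherian _) hfin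
  set 𝔭 : Ideal R := RingHom.ker (πR : R →+* 𝒪) with h𝔭
  have h𝔭top : 𝔭 ≠ ⊤ := by
    rw [Ne, Ideal.eq_top_iff_one, RingHom.mem_ker]
    show ¬ πR 1 = 0
    rw [map_one]
    exact one_ne_zero
  have h𝔭m : 𝔭 ≤ maximalIdeal R := IsLocalRing.le_maximalIdeal h𝔭top
  -- `t` is a unit, hence `𝔭 = (x)`
  have htu : IsUnit t := by
    by_contra hnu
    have h1 : t ∈ maximalIdeal R := (IsLocalRing.mem_maximalIdeal _).mpr hnu
    have h2 : t - 1 ∈ 𝔭 := by
      rw [h𝔭, RingHom.mem_ker]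
      show πR (t - 1) = 0
      rw [map_sub, hπt, map_one, sub_self]
    have h3 : (1 : R) ∈ maximalIdeal R := by
      have : (1 : R) = t - (t - 1) := by ring
      rw [this]
      exact Ideal.sub_mem _ h1 (h𝔭m h2)
    exact (Ideal.ne_top_iff_one _).mp (IsLocalRing.maximalIdeal.isMaximal R).ne_top h3
  have hspan : Ideal.span (Set.range x) = 𝔭 := by
    apply le_antisymm
    · rw [Ideal.span_le]
      rintro _ ⟨i, rfl⟩
      exact hx i
    · intro y hy
      obtain ⟨u, rfl⟩ := htu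
      have h1 := htN y hy
      have h2 : y = (↑u⁻¹ : R) * (↑u * y) := by
        rw [← mul_assoc, Units.inv_mul, one_mul]
      rw [h2]
      exact Ideal.mul_mem_left _ _ h1
  have hDp : ∀ y ∈ 𝔭, M.det * y = 0 := fun y hy =>
    NumCrit.det_mul_eq_zero_of_mem_span M x hMx (hspan ▸ hy)
  set c : 𝒪 := πR M.det with hc
  -- `c ∈ η`
  have hφD : φ M.det ∈ Module.annihilator T (RingHom.ker (π : T →+* 𝒪)) := by
    rw [Module.mem_annihilator]
    rintro ⟨y', hy'⟩
    apply Subtype.ext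
    show φ M.det * y' = 0
    obtain ⟨y, rfl⟩ := hφ y'
    have hy : y ∈ 𝔭 := by
      rw [h𝔭, RingHom.mem_ker]
      exact (RingHom.mem_ker).mp hy'
    rw [← map_mul, hDp y hy, map_zero]
  have hcη : c ∈ congruenceIdeal π := Ideal.mem_map_of_mem (π : T →+* 𝒪) hφD
  -- `c ≠ 0`
  have hc0 : c ≠ 0 := by
    intro hc0
    apply hfin
    rw [hlen]
    show Module.length 𝒪 (𝒪 ⧸ Ideal.span {c}) = ⊤
    rw [hc0]
    have := Ring.ord_zero (R := 𝒪)
    unfold Ring.ord at this
    rw [this]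
    exact NumCrit.length_self_eq_top
  -- `η = (c)`
  have hηc : congruenceIdeal π ≤ Ideal.span {c} := by
    rw [hh] at hcη ⊢
    obtain ⟨m, hm⟩ := Ideal.mem_span_singleton'.mp hcη
    have hm0 : m ≠ 0 := by
      rintro rfl
      rw [zero_mul] at hm
      exact hc0 hm.symm
    have h1 : Ring.ord 𝒪 c = Ring.ord 𝒪 m + Ring.ord 𝒪 h := by
      rw [← hm, Ring.ord_mul 𝒪 (mem_nonZeroDivisors_of_ne_zero hh0)]
    have h2 : Ring.ord 𝒪 c ≤ Ring.ord 𝒪 h := by
      have h3 := hnum
      rw [hlen] at h3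
      unfold congLength at h3
      rw [hh] at h3
      exact h3
    have h4 : Ring.ord 𝒪 h ≠ ⊤ := Ring.ord_ne_top (mem_nonZeroDivisors_of_ne_zero hh0)
    have h5 : Ring.ord 𝒪 m = 0 := by
      rw [h1] at h2
      have h6 : Ring.ord 𝒪 m + Ring.ord 𝒪 h ≤ 0 + Ring.ord 𝒪 h := by rw [zero_add]; exact h2
      exact le_antisymm ((ENat.add_le_add_iff_right h4).mp h6) (by positivity)
    have h6 : Subsingleton (𝒪 ⧸ Ideal.span {m}) := Module.length_eq_zero_iff.mp h5
    have h7 : Ideal.span {m} = ⊤ := Ideal.Quotient.subsingleton_iff.mp h6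
    have hmu : IsUnit m := Ideal.span_singleton_eq_top.mp h7
    rw [Ideal.span_singleton_le_iff_mem, ← hm]
    obtain ⟨u, rfl⟩ := hmu
    rw [Ideal.mem_span_singleton']
    exact ⟨↑u⁻¹, by rw [← mul_assoc, Units.inv_mul, one_mul]⟩
  -- a uniformizer
  obtain ⟨ϖ, hϖ⟩ := IsDiscreteValuationRing.exists_irreducible 𝒪
  have hϖm : ϖ ∈ maximalIdeal 𝒪 := by
    rw [IsLocalRing.mem_maximalIdeal, mem_nonunits_iff]
    exact hϖ.not_isUnit
  have hϖ0 : ϖ ≠ 0 := hϖ.ne_zero
  -- step 6: `φ D ∉ ϖ T`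
  have hstep6 : ∀ s : T, φ M.det ≠ algebraMap 𝒪 T ϖ * s := by
    intro s hs
    have hs_ann : s ∈ Module.annihilator T (RingHom.ker (π : T →+* 𝒪)) := by
      rw [Module.mem_annihilator]
      rintro ⟨y', hy'⟩
      apply Subtype.ext
      show s * y' = 0
      have h1 : φ M.det * y' = 0 := by
        have := (Module.mem_annihilator.mp hφD) ⟨y', hy'⟩
        exact congrArg Subtype.val this
      rw [hs, mul_assoc, ← Algebra.smul_def] at h1
      exact (smul_eq_zero.mp h1).resolve_left hϖ0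
    have h2 : π s ∈ Ideal.span {c} := hηc (Ideal.mem_map_of_mem (π : T →+* 𝒪) hs_ann)
    obtain ⟨m', hm'⟩ := Ideal.mem_span_singleton'.mp h2
    have h3 : c = ϖ * (m' * c) := by
      have h4 : π (φ M.det) = ϖ * π s := by
        rw [hs, map_mul, AlgHom.commutes]
        rfl
      rw [hm']
      exact h4
    have h5 : c * (1 - ϖ * m') = 0 := by
      have : c * (1 - ϖ * m') = c - ϖ * (m' * c) := by ring
      rw [this, ← h3, sub_self]
    have h6 : (1 - ϖ * m') ≠ 0 := by
      intro h7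
      have h8 : (1 : 𝒪) ∈ maximalIdeal 𝒪 := by
        have : (1 : 𝒪) = ϖ * m' := by rw [← sub_eq_zero]; exact h7
        rw [this]
        exact Ideal.mul_mem_right _ _ hϖm
      exact (Ideal.ne_top_iff_one _).mp (IsLocalRing.maximalIdeal.isMaximal 𝒪).ne_top h8
    exact hc0 ((mul_eq_zero.mp h5).resolve_right h6)
  -- the ring `A = R ⧸ ϖ R`
  let ϖR : R := algebraMap 𝒪 R ϖ
  have hϖRm : ϖR ∈ maximalIdeal R := by
    rw [IsLocalRing.mem_maximalIdeal, mem_nonunits_iff]
    intro hu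
    have h1 : IsUnit (πR ϖR) := hu.map πR
    rw [AlgHom.commutes] at h1
    exact hϖ.not_isUnit h1
  let 𝔮 : Ideal R := Ideal.span {ϖR}
  have h𝔮m : 𝔮 ≤ maximalIdeal R := (Ideal.span_singleton_le_iff_mem _).mpr hϖRm
  have h𝔮top : 𝔮 ≠ ⊤ := fun h => (IsLocalRing.maximalIdeal.isMaximal R).ne_top
    (top_le_iff.mp (h ▸ h𝔮m))
  haveI hlA : IsLocalRing (R ⧸ 𝔮) := NumCrit.wl_isLocalRing_quotient h𝔮top
  let q := Ideal.Quotient.mk 𝔮
  -- `𝔪_R = 𝔭 + 𝔮`
  have hmax : maximalIdeal R ≤ 𝔭 ⊔ 𝔮 := by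
    intro r hr
    have h1 : πR r ∈ maximalIdeal 𝒪 := by
      rw [IsLocalRing.mem_maximalIdeal, mem_nonunits_iff]
      intro hu
      have h2 : r - algebraMap 𝒪 R (πR r) ∈ 𝔭 := by
        rw [h𝔭, RingHom.mem_ker]
        show πR (r - algebraMap 𝒪 R (πR r)) = 0
        rw [map_sub, AlgHom.commutes]
        exact sub_self _
      have h3 : algebraMap 𝒪 R (πR r) ∈ maximalIdeal R := by
        have : algebraMap 𝒪 R (πR r) = r - (r - algebraMap 𝒪 R (πR r)) := by ring
        rw [this]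
        exact Ideal.sub_mem _ hr (h𝔭m h2)
      rw [IsLocalRing.mem_maximalIdeal, mem_nonunits_iff] at h3
      exact h3 (hu.map (algebraMap 𝒪 R))
    rw [hϖ.maximalIdeal_eq, Ideal.mem_span_singleton'] at h1
    obtain ⟨o, ho⟩ := h1
    have h2 : r - algebraMap 𝒪 R o * ϖR ∈ 𝔭 := by
      rw [h𝔭, RingHom.mem_ker]
      show πR (r - algebraMap 𝒪 R o * ϖR) = 0
      rw [map_sub, map_mul, AlgHom.commutes, AlgHom.commutes, ← ho]
      exact sub_self _
    have h3 : r = (r - algebraMap 𝒪 R o * ϖR) + algebraMap 𝒪 R o * ϖR := by ring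
    rw [h3]
    exact Submodule.add_mem_sup h2 (Ideal.mul_mem_left _ _ (Ideal.subset_span rfl))
  have hxA : Ideal.span (Set.range fun i => q (x i)) = maximalIdeal (R ⧸ 𝔮) := by
    rw [NumCrit.wl_maximalIdeal_quotient]
    have h1 : (Ideal.span (Set.range x)).map q = Ideal.span (Set.range fun i => q (x i)) := by
      rw [Ideal.map_span, ← Set.range_comp]
      rfl
    rw [← h1, hspan]
    apply le_antisymm
    · exact Ideal.map_mono h𝔭m
    · refine (Ideal.map_mono hmax).trans ?_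
      rw [Ideal.map_sup]
      have h2 : 𝔮.map q = ⊥ := Ideal.map_quotient_self 𝔮
      rw [h2, sup_bot_eq]
  have hMA : (q.mapMatrix M).mulVec (fun i => q (x i)) = 0 := by
    ext i
    have h1 := congrArg q (congrFun hMx i)
    simp only [Matrix.mulVec, dotProduct, map_sum, map_mul, Pi.zero_apply, map_zero] at h1
    simp only [Matrix.mulVec, dotProduct, RingHom.mapMatrix_apply, Matrix.map_apply,
      Pi.zero_apply]
    exact h1
  have hdA : (q.mapMatrix M).det ∉ (RingHom.ker (φ : R →+* T)).map q := by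
    intro hmem
    rw [← RingHom.map_det] at hmem
    obtain ⟨a, ha, haq⟩ := (Ideal.mem_map_iff_of_surjective q Ideal.Quotient.mk_surjective).mp hmem
    have h1 : M.det - a ∈ 𝔮 := by
      rw [← Ideal.Quotient.eq_zero_iff_mem, map_sub, sub_eq_zero]
      exact haq.symm
    obtain ⟨r, hr⟩ := Ideal.mem_span_singleton'.mp h1
    have h2 : φ M.det = algebraMap 𝒪 T ϖ * φ r := by
      have h3 : M.det = a + r * ϖR := by rw [hr]; ring
      have h4 : φ a = 0 := (RingHom.mem_ker).mp ha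
      rw [h3, map_add, h4, zero_add, map_mul, AlgHom.commutes, mul_comm]
    exact hstep6 (φ r) h2
  -- `R ⧸ ϖ R` is an algebra over the residue field `k` of `𝒪`, with residue field `k`
  let ψ : 𝒪 →+* (R ⧸ 𝔮) := q.comp (algebraMap 𝒪 R)
  have hψ : ∀ a ∈ maximalIdeal 𝒪, ψ a = 0 := by
    intro a ha
    rw [hϖ.maximalIdeal_eq, Ideal.mem_span_singleton'] at ha
    obtain ⟨o, rfl⟩ := ha
    show q (algebraMap 𝒪 R (o * ϖ)) = 0
    rw [map_mul, map_mul]
    have : q ϖR = 0 := Ideal.Quotient.eq_zero_iff_mem.mpr (Ideal.subset_span rfl)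
    show q (algebraMap 𝒪 R o) * q ϖR = 0
    rw [this, mul_zero]
  letI algk : Algebra (ResidueField 𝒪) (R ⧸ 𝔮) :=
    (Ideal.Quotient.lift (maximalIdeal 𝒪) ψ hψ).toAlgebra
  have hkA : ∀ a : R ⧸ 𝔮, ∃ c : ResidueField 𝒪,
      a - algebraMap (ResidueField 𝒪) (R ⧸ 𝔮) c ∈ maximalIdeal (R ⧸ 𝔮) := by
    intro a'
    obtain ⟨r, rfl⟩ := Ideal.Quotient.mk_surjective a'
    refine ⟨IsLocalRing.residue 𝒪 (πR r), ?_⟩
    have h1 : algebraMap (ResidueField 𝒪) (R ⧸ 𝔮) (IsLocalRing.residue 𝒪 (πR r)) =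
        q (algebraMap 𝒪 R (πR r)) := by
      show (Ideal.Quotient.lift (maximalIdeal 𝒪) ψ hψ) (Ideal.Quotient.mk _ (πR r)) = _
      rw [Ideal.Quotient.lift_mk]
      rfl
    rw [h1]
    have h2 : Ideal.Quotient.mk 𝔮 r - q (algebraMap 𝒪 R (πR r)) =
        q (r - algebraMap 𝒪 R (πR r)) := by rw [map_sub]
    rw [h2, NumCrit.wl_maximalIdeal_quotient]
    apply Ideal.mem_map_of_mem
    apply h𝔭m
    rw [h𝔭, RingHom.mem_ker]
    show πR (r - algebraMap 𝒪 R (πR r)) = 0
    rw [map_sub, AlgHom.commutes]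
    exact sub_self _
  have hker𝔮 : RingHom.ker (φ : R →+* T) ≤ 𝔮 := by
    have h1 := NumCrit.eq_bot_of_det_notMem hkA (fun i => q (x i)) hxA (q.mapMatrix M) hMA _ hdA
    rw [Ideal.map_eq_bot_iff_le_ker, Ideal.mk_ker] at h1
    exact h1
  -- Nakayama
  have hker : RingHom.ker (φ : R →+* T) = ⊥ := by
    apply Submodule.eq_bot_of_le_smul_of_le_jacobson_bot (maximalIdeal R) _
      (IsNoetherian.noetherian _)
    · intro a ha
      obtain ⟨r, hr⟩ := Ideal.mem_span_singleton'.mp (hker𝔮 ha)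
      have h1 : algebraMap 𝒪 T ϖ * φ r = 0 := by
        have h2 : φ a = 0 := (RingHom.mem_ker).mp ha
        rw [← hr, map_mul, AlgHom.commutes, mul_comm] at h2
        exact h2
      rw [← Algebra.smul_def] at h1
      have h3 : φ r = 0 := (smul_eq_zero.mp h1).resolve_left hϖ0
      have h4 : r ∈ RingHom.ker (φ : R →+* T) := (RingHom.mem_ker).mpr h3
      rw [← hr, mul_comm]
      exact Submodule.smul_mem_smul hϖRm h4
    · exact IsLocalRing.maximalIdeal_le_jacobson _
  exact (RingHom.injective_iff_ker_eq_bot (φ : R →+* T)).mpr hker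

end Fermat.Agent.S59
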